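import Fermat.Agent.RT.Patch.Support

/-!
# Integrality from the diamond relations

If along the limit every variable of `S = 𝒪⟦y₁, …, y_r⟧` satisfies a fixed power of
`(1 + y)² - (g² - 2) (1 + y) + 1` with `g` in the image of the action, then `S` is integral over
that image.
-/

set_option autoImplicit false
set_option linter.unusedSectionVars false

noncomputable section

open IsLocalRing Matrix FLTAgent.Deformation

namespace FLTAgent.RT

open Patch

variable {𝒪 : Type} [CommRing 𝒪] [IsLocalRing 𝒪] [IsNoetherianRing 𝒪]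
  [IsAdicComplete (maximalIdeal 𝒪) 𝒪] [Finite (ResidueField 𝒪)] {τ : Type} [Finite τ]

local instance adicCompleteDia (r : ℕ) :
    IsAdicComplete (maximalIdeal (MvPowerSeries (Fin r) 𝒪)) (MvPowerSeries (Fin r) 𝒪) :=
  isAdicComplete_powerSeries

local instance finiteResidueDia (r : ℕ) : Finite (ResidueField (MvPowerSeries (Fin r) 𝒪)) :=
  finite_residueField_powerSeries

theorem integral_of_dia {r d : ℕ} (L : PMod (MvPowerSeries (Fin r) 𝒪) τ d)
    {s : ℕ → ℕ} (hs : StrictMono s)
    {φ : ∀ n, MvPowerSeries τ 𝒪 →ₐ[𝒪] Matrix (Fin d) (Fin d)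
      (MvPowerSeries (Fin r) 𝒪 ⧸ maximalIdeal (MvPowerSeries (Fin r) 𝒪) ^ n)}
    (hL : ∀ n f, L.homMod n f = (φ (s n) f).map (red (hs.id_le n)))
    (F : Fin r → Matrix (Fin d) (Fin d) (MvPowerSeries (Fin r) 𝒪))
    (dia : ℕ → Fin r → MvPowerSeries τ 𝒪)
    (hF : ∀ n j, (F j).map (Ideal.Quotient.mk (maximalIdeal (MvPowerSeries (Fin r) 𝒪) ^ n)) =
      (φ (s n) (dia (s n) j)).map (red (hs.id_le n)))
    (K : ℕ) (hdia : ∀ n j,
      ((algebraMap (MvPowerSeries (Fin r) 𝒪) (Matrix (Fin d) (Fin d)
          (MvPowerSeries (Fin r) 𝒪 ⧸ maximalIdeal (MvPowerSeries (Fin r) 𝒪) ^ n))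
            (1 + MvPowerSeries.X j)) ^ 2 -
        (φ n (dia n j) ^ 2 - 2) *
          algebraMap (MvPowerSeries (Fin r) 𝒪) (Matrix (Fin d) (Fin d)
            (MvPowerSeries (Fin r) 𝒪 ⧸ maximalIdeal (MvPowerSeries (Fin r) 𝒪) ^ n))
              (1 + MvPowerSeries.X j) + 1) ^ K = 0) :
    L.Integral 𝒪 := by
  classical
  let S := MvPowerSeries (Fin r) 𝒪
  have hG : ∀ j, ∃ g, L.hom (O := 𝒪) g = F j := fun j => by
    obtain ⟨a, ha⟩ := L.exists_eq_sum_of_approx (O := 𝒪) (K := Unit) (fun _ => 1)
      (F j) fun n => ⟨fun _ => dia (s n) j, fun x y => by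
        rw [Fintype.sum_unique, Matrix.mul_one]
        show F j x y - L.hom (dia (s n) j) x y ∈ maximalIdeal S ^ n
        rw [← Ideal.Quotient.eq]
        have e : (F j).map (Ideal.Quotient.mk (maximalIdeal S ^ n)) =
            (L.hom (dia (s n) j)).map (Ideal.Quotient.mk (maximalIdeal S ^ n)) := by
          refine (hF n j).trans ?_
          rw [← PMod.homMod_apply, hL]
        exact congrFun (congrFun e x) y⟩
    exact ⟨a (), by rw [ha, Fintype.sum_unique, Matrix.mul_one]⟩
  have e0 : ∀ (n : ℕ) (v : S), (algebraMap S (Matrix (Fin d) (Fin d) S) v).map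
      (Ideal.Quotient.mk (maximalIdeal S ^ n)) =
      algebraMap S (Matrix (Fin d) (Fin d) (S ⧸ maximalIdeal S ^ n)) v := fun n v => by
    ext a b
    rw [Matrix.map_apply, Matrix.algebraMap_matrix_apply, Matrix.algebraMap_matrix_apply]
    split
    · rfl
    · exact map_zero _
  have e0' : ∀ (n m : ℕ) (h : n ≤ m) (v : S),
      (algebraMap S (Matrix (Fin d) (Fin d) (S ⧸ maximalIdeal S ^ m)) v).map (red h) =
      algebraMap S (Matrix (Fin d) (Fin d) (S ⧸ maximalIdeal S ^ n)) v := fun n m h v => by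
    ext a b
    rw [Matrix.map_apply, Matrix.algebraMap_matrix_apply, Matrix.algebraMap_matrix_apply]
    split
    · rfl
    · exact map_zero _
  refine L.integral_of_generators (fun j => MvPowerSeries.X j) (fun f n => ?_) fun j => ?_
  · obtain ⟨q, hq⟩ := exists_polynomial_sub_mem f n
    refine ⟨_, ?_, hq⟩
    clear hq
    induction q using MvPolynomial.induction_on with
    | C c =>
      rw [MvPolynomial.coe_C, show (MvPowerSeries.C c : S) = algebraMap 𝒪 S c by
        rw [MvPowerSeries.algebraMap_apply]; rfl]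
      exact Subalgebra.algebraMap_mem _ c
    | add a b ha hb => rw [MvPolynomial.coe_add]; exact add_mem ha hb
    | mul_X a i ha =>
      rw [MvPolynomial.coe_mul, MvPolynomial.coe_X]
      exact mul_mem ha (Algebra.subset_adjoin ⟨i, rfl⟩)
  · obtain ⟨g, hg⟩ := hG j
    let R := MvPowerSeries τ 𝒪
    let p : Polynomial R := ((Polynomial.X + 1) ^ 2 -
      (Polynomial.C g ^ 2 - 2) * (Polynomial.X + 1) + 1) ^ K
    refine ⟨p, Polynomial.Monic.pow ?_ _, ?_⟩
    · have : ((Polynomial.X + 1) ^ 2 - (Polynomial.C g ^ 2 - 2) * (Polynomial.X + 1) + 1 :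
          Polynomial R) = Polynomial.X ^ 2 + (Polynomial.C (4 - g ^ 2) * Polynomial.X +
            Polynomial.C (4 - g ^ 2)) := by
        rw [map_sub, map_pow, show (Polynomial.C (4 : R)) = 4 from Polynomial.C_ofNat 4]
        ring
      rw [this]
      refine Polynomial.monic_X_pow_add (lt_of_le_of_lt Polynomial.degree_linear_le ?_)
      exact_mod_cast Nat.lt_succ_self 1
    · refine Subtype.ext (matrix_eq_of_forall_map_eq fun n => ?_)
      rw [ZeroMemClass.coe_zero, Matrix.map_zero _ (map_zero _)]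
      have h := congrArg (fun M => M.map (red (hs.id_le n))) (hdia (s n) j)
      simp only [Matrix.map_zero _ (map_zero _)] at h
      have hFG : (L.hom g).map (Ideal.Quotient.mk (maximalIdeal S ^ n)) =
          (φ (s n) (dia (s n) j)).map (red (hs.id_le n)) := by
        rw [hg]; exact hF n j
      simp only [← one_add_one_eq_two] at h
      rw [← RingHom.mapMatrix_apply] at h
      simp only [map_pow, map_add, map_sub, map_mul, map_one,
        RingHom.mapMatrix_apply, e0', ← hFG] at h
      have e1 : ∀ z, ((L.toAlg (O := 𝒪) z : L.alg) : Matrix (Fin d) (Fin d) S) = L.hom z :=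
        fun z => rfl
      simp only [p, Polynomial.eval₂_pow, Polynomial.eval₂_add, Polynomial.eval₂_sub,
        Polynomial.eval₂_mul, Polynomial.eval₂_X, Polynomial.eval₂_one, Polynomial.eval₂_C,
        Polynomial.eval₂_ofNat, SubmonoidClass.coe_pow, AddSubgroupClass.coe_sub,
        Subalgebra.coe_add, Subalgebra.coe_mul, Subalgebra.coe_one, Subalgebra.coe_algebraMap,
        e1]
      simp only [← one_add_one_eq_two]
      rw [← RingHom.mapMatrix_apply]
      simp only [map_pow, map_add, map_sub, map_mul, map_one,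
        RingHom.mapMatrix_apply, e0]
      refine Eq.trans ?_ h
      simp [add_comm, Matrix.map_add, Matrix.map_one]
      rfl

end FLTAgent.RT
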