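import Fermat.Agent.RT.World.Defs
import Fermat.Agent.RT.World.Dia

/-!
# From finite levels to a patched world

A system consists, for every `n`, of the actions on the levels truncated modulo the `n`-th power
of the maximal ideal of `S`, with the same identities; its limit along a subsequence is a world.
-/

set_option autoImplicit false
set_option linter.unusedSectionVars false

noncomputable section

open IsLocalRing Matrix FLTAgent.Deformation

namespace FLTAgent.RT

open Patch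

/-- Relations may be checked componentwise in a product. -/
theorem LocalDatum.Rel.pi {𝒪 : Type} [CommRing 𝒪] {D : LocalDatum 𝒪} {t : 𝒪} {κ : Type*}
    {A : κ → Type*} [∀ n, CommRing (A n)] [∀ n, Algebra 𝒪 (A n)] {w : Fin 8 → ∀ n, A n}
    (h : ∀ n, D.Rel t fun k => w k n) : D.Rel t w where
  det_phi := funext fun n => by
    have h1 := (h n).det_phi
    rw [show (fun k => w k n) = fun k => Pi.evalAlgHom 𝒪 A n (w k) from rfl,
      ← D.phiMat_map, ← AlgHom.mapMatrix_apply, ← AlgHom.map_det] at h1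
    exact h1.trans (map_natCast (Pi.evalAlgHom 𝒪 A n) D.q).symm
  comm := Matrix.ext fun a b => funext fun n => by
    have h1 := (h n).comm
    rw [show (fun k => w k n) = fun k => Pi.evalAlgHom 𝒪 A n (w k) from rfl,
      ← D.phiMat_map, ← sMat_map, ← AlgHom.mapMatrix_apply, ← AlgHom.mapMatrix_apply,
      ← map_pow, ← map_mul, ← map_mul] at h1
    exact congrFun (congrFun h1 a) b
  trace_s := funext fun n => by
    have h1 := (h n).trace_s
    rw [show (fun k => w k n) = fun k => Pi.evalAlgHom 𝒪 A n (w k) from rfl,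
      ← sMat_map, trace_fin_two, Matrix.map_apply, Matrix.map_apply, ← map_add,
      ← trace_fin_two] at h1
    exact h1
  det_s := funext fun n => by
    have h1 := (h n).det_s
    rw [show (fun k => w k n) = fun k => Pi.evalAlgHom 𝒪 A n (w k) from rfl,
      ← sMat_map, ← AlgHom.mapMatrix_apply, ← AlgHom.map_det] at h1
    exact h1

/-- Relations modulo each of a family of ideals give relations modulo any ideal containing their
intersection. -/
theorem LocalDatum.Rel.of_forall_quotient {𝒪 : Type} [CommRing 𝒪] {D : LocalDatum 𝒪} {t : 𝒪}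
    {R : Type} [CommRing R] [Algebra 𝒪 R] {κ : Type} {J : κ → Ideal R} {J₀ : Ideal R}
    (hJ : ∀ f, (∀ n, f ∈ J n) → f ∈ J₀) {v : Fin 8 → R}
    (h : ∀ n, D.Rel t fun k => Ideal.Quotient.mk (J n) (v k)) :
    D.Rel t fun k => Ideal.Quotient.mk J₀ (v k) := by
  let F : R →ₐ[𝒪] ∀ n, R ⧸ J n := AlgHom.pi fun n => Ideal.Quotient.mkₐ 𝒪 (J n)
  have hle : RingHom.ker F ≤ J₀ := fun f hf => hJ f fun n =>
    Ideal.Quotient.eq_zero_iff_mem.mp (congrFun (RingHom.mem_ker.mp hf) n)
  have h1 : D.Rel t fun k => Ideal.Quotient.mk (RingHom.ker F) (v k) :=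
    LocalDatum.Rel.of_injective (Ideal.Quotient.liftₐ (RingHom.ker F) F fun _ ha => ha)
      (RingHom.kerLift_injective (F : R →+* ∀ n, R ⧸ J n)) (LocalDatum.Rel.pi h)
  exact h1.map (Ideal.Quotient.factorₐ 𝒪 hle)

variable {𝒪 : Type} [CommRing 𝒪] [IsLocalRing 𝒪] [IsNoetherianRing 𝒪]
  [IsAdicComplete (maximalIdeal 𝒪) 𝒪] [Finite (ResidueField 𝒪)] {ι X : Type} [Finite ι]
  [Finite X] [DecidableEq ι]

local instance adicCompleteSys (r : ℕ) :
    IsAdicComplete (maximalIdeal (MvPowerSeries (Fin r) 𝒪)) (MvPowerSeries (Fin r) 𝒪) :=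
  isAdicComplete_powerSeries

local instance finiteResidueSys (r : ℕ) : Finite (ResidueField (MvPowerSeries (Fin r) 𝒪)) :=
  finite_residueField_powerSeries

/-- The truncations of `S = 𝒪⟦y₁, …, y_r⟧`. -/
abbrev STrunc (𝒪 : Type) [CommRing 𝒪] [IsLocalRing 𝒪] (r n : ℕ) : Type :=
  MvPowerSeries (Fin r) 𝒪 ⧸ maximalIdeal (MvPowerSeries (Fin r) 𝒪) ^ n

/-- The degeneracy maps between two truncated levels. -/
structure TruncRaise {r n d f : ℕ}
    (φA : MvPowerSeries (LocVar ι X) 𝒪 →ₐ[𝒪] Matrix (Fin d) (Fin d) (STrunc 𝒪 r n))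
    (φB : MvPowerSeries (LocVar ι X) 𝒪 →ₐ[𝒪] Matrix (Fin f) (Fin f) (STrunc 𝒪 r n))
    (c t u : MvPowerSeries (LocVar ι X) 𝒪) (K : ℕ) : Type where
  i₁ : Matrix (Fin f) (Fin d) (STrunc 𝒪 r n)
  i₂ : Matrix (Fin f) (Fin d) (STrunc 𝒪 r n)
  l₁ : Matrix (Fin d) (Fin f) (STrunc 𝒪 r n)
  l₂ : Matrix (Fin d) (Fin f) (STrunc 𝒪 r n)
  j₁ : Matrix (Fin d) (Fin f) (STrunc 𝒪 r n)
  j₂ : Matrix (Fin d) (Fin f) (STrunc 𝒪 r n)
  s₁ : Matrix (Fin f) (Fin d) (STrunc 𝒪 r n)
  l₁i₁ : l₁ * i₁ = 1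
  l₁i₂ : l₁ * i₂ = 0
  l₂i₁ : l₂ * i₁ = 0
  l₂i₂ : l₂ * i₂ = 1
  i₁_act : ∀ x, φB (MvPowerSeries.X x) * i₁ = i₁ * φA (MvPowerSeries.X x)
  i₂_act : ∀ x, φB (MvPowerSeries.X x) * i₂ = i₂ * φA (MvPowerSeries.X x)
  j₁_act : ∀ x, j₁ * φB (MvPowerSeries.X x) = φA (MvPowerSeries.X x) * j₁
  j₂_act : ∀ x, j₂ * φB (MvPowerSeries.X x) = φA (MvPowerSeries.X x) * j₂
  j₁s₁ : j₁ * s₁ = 1
  j₂s₁ : j₂ * s₁ = 0
  j₁i₁ : j₁ * i₁ = φA c
  j₁i₂ : j₁ * i₂ = φA t
  j₂i₁ : j₂ * i₁ = φA t
  j₂i₂ : j₂ * i₂ = φA c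
  new : (1 - i₁ * l₁ - i₂ * l₂) * φB (u ^ K) = 0

/-- The finite levels of a world: for each `n` the truncated actions, with exponent `K` for all
nilpotence statements. -/
structure System (D : ι → LocalDatum 𝒪) (X : Type) [Finite X] (r : ℕ) : Type where
  K : ℕ
  K_pos : 0 < K
  rank : Finset ι → ℕ
  act : ∀ n A, MvPowerSeries (LocVar ι X) 𝒪 →ₐ[𝒪]
    Matrix (Fin (rank A)) (Fin (rank A)) (STrunc 𝒪 r n)
  rel : ∀ n A i, (D i).Rel 2 fun k =>
    Ideal.Quotient.mk (RingHom.ker (act n A)) (locCoord i k)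
  norm : ∀ n A i, (D i).IsNorm fun k =>
    Ideal.Quotient.mk (RingHom.ker (act n A)) (locCoord i k)
  unr : ∀ n A i, i ∉ A → ∀ k : Fin 8, 4 ≤ k →
    act n A ((locCoord i k : MvPowerSeries (LocVar ι X) 𝒪) ^ K) = 0
  raise : ∀ n A i, i ∉ A → TruncRaise (act n A) (act n (insert i A))
    (((D i).q : MvPowerSeries (LocVar ι X) 𝒪) + 1) (frobTrace D i) (raisingElt D i) K
  /-- preimages of the traces at the auxiliary primes -/
  dia : ∀ n, Finset ι → Fin r → MvPowerSeries (LocVar ι X) 𝒪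
  dia_rel : ∀ n A j,
    ((algebraMap (MvPowerSeries (Fin r) 𝒪) (Matrix (Fin (rank A)) (Fin (rank A)) (STrunc 𝒪 r n))
          (1 + MvPowerSeries.X j)) ^ 2 -
        (act n A (dia n A j) ^ 2 - 2) *
          algebraMap (MvPowerSeries (Fin r) 𝒪) (Matrix (Fin (rank A)) (Fin (rank A)) (STrunc 𝒪 r n))
            (1 + MvPowerSeries.X j) + 1) ^ K = 0

theorem matrixMap_algebraMap {r n d : ℕ} (s : MvPowerSeries (Fin r) 𝒪) :
    (algebraMap (MvPowerSeries (Fin r) 𝒪)
        (Matrix (Fin d) (Fin d) (MvPowerSeries (Fin r) 𝒪)) s).map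
      (Ideal.Quotient.mk (maximalIdeal (MvPowerSeries (Fin r) 𝒪) ^ n)) =
    algebraMap (MvPowerSeries (Fin r) 𝒪) (Matrix (Fin d) (Fin d) (STrunc 𝒪 r n)) s := by
  ext a b
  rw [Matrix.map_apply, Matrix.algebraMap_matrix_apply, Matrix.algebraMap_matrix_apply]
  split
  · rfl
  · exact map_zero _

theorem algebraMap_red {r n m d : ℕ} (h : n ≤ m) (s : MvPowerSeries (Fin r) 𝒪) :
    (algebraMap (MvPowerSeries (Fin r) 𝒪) (Matrix (Fin d) (Fin d) (STrunc 𝒪 r m)) s).map (red h) =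
    algebraMap (MvPowerSeries (Fin r) 𝒪) (Matrix (Fin d) (Fin d) (STrunc 𝒪 r n)) s := by
  ext a b
  rw [Matrix.map_apply, Matrix.algebraMap_matrix_apply, Matrix.algebraMap_matrix_apply]
  split
  · rfl
  · exact map_zero _

/-- **The limit of a system is a world**, linked to the system along a subsequence. -/
theorem System.exists_world {D : ι → LocalDatum 𝒪} {r : ℕ} (sys : System D X r) :
    ∃ (s : ℕ → ℕ) (hs : StrictMono s)
      (L : ∀ A, PMod (MvPowerSeries (Fin r) 𝒪) (LocVar ι X) (sys.rank A)) (W : World D X r),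
      (∀ n A f, (L A).homMod n f = (sys.act (s n) A f).map (red (hs.id_le n))) ∧
      (∀ A, (L A).Integral 𝒪) ∧
      ∀ A, W.rank A = sys.rank A ∧
        RingHom.ker ((W.mod A).hom (O := 𝒪)) = RingHom.ker ((L A).hom (O := 𝒪)) := by
  classical
  let S := MvPowerSeries (Fin r) 𝒪
  let P := {p : Finset ι × ι // p.2 ∉ p.1}
  have : Fintype ι := Fintype.ofFinite ι
  have : Finite P := inferInstance
  let rw_ : (P × Fin 3 ⊕ P × Fin 4) ⊕ Finset ι × Fin r → ℕ := Sum.elim
    (Sum.elim (fun k => sys.rank (insert k.1.1.2 k.1.1.1)) fun k => sys.rank k.1.1.1)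
    fun k => sys.rank k.1
  let cl : (P × Fin 3 ⊕ P × Fin 4) ⊕ Finset ι × Fin r → ℕ := Sum.elim
    (Sum.elim (fun k => sys.rank k.1.1.1) fun k => sys.rank (insert k.1.1.2 k.1.1.1))
    fun k => sys.rank k.1
  let E : ∀ (n : ℕ) k, Matrix (Fin (rw_ k)) (Fin (cl k))
      (S ⧸ maximalIdeal S ^ n) := fun n k => match k with
    | Sum.inl (Sum.inl (p, m)) =>
      ![(sys.raise n p.1.1 p.1.2 p.2).i₁, (sys.raise n p.1.1 p.1.2 p.2).i₂,
        (sys.raise n p.1.1 p.1.2 p.2).s₁] m
    | Sum.inl (Sum.inr (p, m)) =>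
      ![(sys.raise n p.1.1 p.1.2 p.2).l₁, (sys.raise n p.1.1 p.1.2 p.2).l₂,
        (sys.raise n p.1.1 p.1.2 p.2).j₁, (sys.raise n p.1.1 p.1.2 p.2).j₂] m
    | Sum.inr (A, j) => sys.act n A (sys.dia n A j)
  obtain ⟨s, hs, L, F, hL, hF⟩ := exists_limit (ι := Finset ι) (τ := fun _ => LocVar ι X)
    (fun n A => sys.act n A) E
  have hmem : ∀ A f, (∀ n, f ∈ RingHom.ker (sys.act (s n) A)) →
      f ∈ RingHom.ker ((L A).hom (O := 𝒪)) := fun A f hf => by
    refine RingHom.mem_ker.mpr (matrix_eq_of_forall_map_eq fun n => ?_)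
    rw [← PMod.homMod_apply, hL, RingHom.mem_ker.mp (hf n), Matrix.map_zero _ (map_zero _),
      Matrix.map_zero _ (map_zero _)]
  have hX : ∀ n A x, ((L A).act x).map (Ideal.Quotient.mk (maximalIdeal S ^ n)) =
      (sys.act (s n) A (MvPowerSeries.X x)).map (red (hs.id_le n)) := fun n A x => by
    rw [← (L A).hom_X (O := 𝒪), ← PMod.homMod_apply, hL]
  have hint : ∀ A, (L A).Integral 𝒪 := fun A =>
    integral_of_dia (L A) hs (φ := fun n => sys.act n A) (fun n f => hL n A f)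
      (fun j => F (Sum.inr (A, j))) (fun n j => sys.dia n A j) (fun n j => hF n (Sum.inr (A, j)))
      sys.K (fun n j => sys.dia_rel n A j)
  refine ⟨s, hs, L, { rank := sys.rank, mod := L, integral := hint, rel := fun A i => ?_,
                            norm := fun A i => ?_, unr := fun A i hi k hk => ?_, raise := fun A i hi => ?_ },
    hL, hint, fun A => ⟨rfl, rfl⟩⟩
  · exact LocalDatum.Rel.of_forall_quotient (hmem A) fun n => sys.rel (s n) A i
  · intro T hT
    refine ⟨Ideal.Quotient.eq_zero_iff_mem.mpr (hmem A _ fun n => ?_),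
      Ideal.Quotient.eq_zero_iff_mem.mpr (hmem A _ fun n => ?_)⟩
    · exact Ideal.Quotient.eq_zero_iff_mem.mp (sys.norm (s n) A i T hT).1
    · exact Ideal.Quotient.eq_zero_iff_mem.mp (sys.norm (s n) A i T hT).2
  · exact ⟨sys.K, hmem A _ fun n => sys.unr (s n) A i hi k hk⟩
  · let p : P := ⟨(A, i), hi⟩
    let rn := fun n => sys.raise (s n) A i hi
    let i₁ : Matrix (Fin (sys.rank (insert i A))) (Fin (sys.rank A)) S := F (Sum.inl (Sum.inl (p, 0)))
    have ei₁ : ∀ n, i₁.map (Ideal.Quotient.mk (maximalIdeal S ^ n)) =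
        (rn n).i₁.map (red (hs.id_le n)) := fun n => hF n _
    let i₂ : Matrix (Fin (sys.rank (insert i A))) (Fin (sys.rank A)) S := F (Sum.inl (Sum.inl (p, 1)))
    have ei₂ : ∀ n, i₂.map (Ideal.Quotient.mk (maximalIdeal S ^ n)) =
        (rn n).i₂.map (red (hs.id_le n)) := fun n => hF n _
    let s₁ : Matrix (Fin (sys.rank (insert i A))) (Fin (sys.rank A)) S := F (Sum.inl (Sum.inl (p, 2)))
    have es₁ : ∀ n, s₁.map (Ideal.Quotient.mk (maximalIdeal S ^ n)) =
        (rn n).s₁.map (red (hs.id_le n)) := fun n => hF n _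
    let l₁ : Matrix (Fin (sys.rank A)) (Fin (sys.rank (insert i A))) S := F (Sum.inl (Sum.inr (p, 0)))
    have el₁ : ∀ n, l₁.map (Ideal.Quotient.mk (maximalIdeal S ^ n)) =
        (rn n).l₁.map (red (hs.id_le n)) := fun n => hF n _
    let l₂ : Matrix (Fin (sys.rank A)) (Fin (sys.rank (insert i A))) S := F (Sum.inl (Sum.inr (p, 1)))
    have el₂ : ∀ n, l₂.map (Ideal.Quotient.mk (maximalIdeal S ^ n)) =
        (rn n).l₂.map (red (hs.id_le n)) := fun n => hF n _
    let j₁ : Matrix (Fin (sys.rank A)) (Fin (sys.rank (insert i A))) S := F (Sum.inl (Sum.inr (p, 2)))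
    have ej₁ : ∀ n, j₁.map (Ideal.Quotient.mk (maximalIdeal S ^ n)) =
        (rn n).j₁.map (red (hs.id_le n)) := fun n => hF n _
    let j₂ : Matrix (Fin (sys.rank A)) (Fin (sys.rank (insert i A))) S := F (Sum.inl (Sum.inr (p, 3)))
    have ej₂ : ∀ n, j₂.map (Ideal.Quotient.mk (maximalIdeal S ^ n)) =
        (rn n).j₂.map (red (hs.id_le n)) := fun n => hF n _
    exact
      { i₁ := i₁
        i₂ := i₂
        s₁ := s₁
        l₁ := l₁
        l₂ := l₂
        j₁ := j₁
        j₂ := j₂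
        l₁i₁ := matrix_eq_of_forall_map_eq fun n => by
          rw [Matrix.map_mul, el₁, ei₁, ← Matrix.map_mul, (rn n).l₁i₁, Matrix.map_one _ (map_zero _) (map_one _), Matrix.map_one _ (map_zero _) (map_one _)]
        l₁i₂ := matrix_eq_of_forall_map_eq fun n => by
          rw [Matrix.map_mul, el₁, ei₂, ← Matrix.map_mul, (rn n).l₁i₂, Matrix.map_zero _ (map_zero _), Matrix.map_zero _ (map_zero _)]
        l₂i₁ := matrix_eq_of_forall_map_eq fun n => by
          rw [Matrix.map_mul, el₂, ei₁, ← Matrix.map_mul, (rn n).l₂i₁, Matrix.map_zero _ (map_zero _), Matrix.map_zero _ (map_zero _)]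
        l₂i₂ := matrix_eq_of_forall_map_eq fun n => by
          rw [Matrix.map_mul, el₂, ei₂, ← Matrix.map_mul, (rn n).l₂i₂, Matrix.map_one _ (map_zero _) (map_one _), Matrix.map_one _ (map_zero _) (map_one _)]
        i₁_act := fun x => matrix_eq_of_forall_map_eq fun n => by
          rw [Matrix.map_mul, Matrix.map_mul, hX, hX, ei₁, ← Matrix.map_mul, ← Matrix.map_mul,
            (rn n).i₁_act x]
        i₂_act := fun x => matrix_eq_of_forall_map_eq fun n => by
          rw [Matrix.map_mul, Matrix.map_mul, hX, hX, ei₂, ← Matrix.map_mul, ← Matrix.map_mul,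
            (rn n).i₂_act x]
        j₁_act := fun x => matrix_eq_of_forall_map_eq fun n => by
          rw [Matrix.map_mul, Matrix.map_mul, hX, hX, ej₁, ← Matrix.map_mul, ← Matrix.map_mul,
            (rn n).j₁_act x]
        j₂_act := fun x => matrix_eq_of_forall_map_eq fun n => by
          rw [Matrix.map_mul, Matrix.map_mul, hX, hX, ej₂, ← Matrix.map_mul, ← Matrix.map_mul,
            (rn n).j₂_act x]
        j₁s₁ := matrix_eq_of_forall_map_eq fun n => by
          rw [Matrix.map_mul, ej₁, es₁, ← Matrix.map_mul, (rn n).j₁s₁, Matrix.map_one _ (map_zero _) (map_one _), Matrix.map_one _ (map_zero _) (map_one _)]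
        j₂s₁ := matrix_eq_of_forall_map_eq fun n => by
          rw [Matrix.map_mul, ej₂, es₁, ← Matrix.map_mul, (rn n).j₂s₁, Matrix.map_zero _ (map_zero _), Matrix.map_zero _ (map_zero _)]
        j₁i₁ := matrix_eq_of_forall_map_eq fun n => by
          rw [Matrix.map_mul, ej₁, ei₁, ← Matrix.map_mul, ← PMod.homMod_apply, hL, (rn n).j₁i₁]
        j₁i₂ := matrix_eq_of_forall_map_eq fun n => by
          rw [Matrix.map_mul, ej₁, ei₂, ← Matrix.map_mul, ← PMod.homMod_apply, hL, (rn n).j₁i₂]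
        j₂i₁ := matrix_eq_of_forall_map_eq fun n => by
          rw [Matrix.map_mul, ej₂, ei₁, ← Matrix.map_mul, ← PMod.homMod_apply, hL, (rn n).j₂i₁]
        j₂i₂ := matrix_eq_of_forall_map_eq fun n => by
          rw [Matrix.map_mul, ej₂, ei₂, ← Matrix.map_mul, ← PMod.homMod_apply, hL, (rn n).j₂i₂]
        new := ⟨sys.K, matrix_eq_of_forall_map_eq fun n => by
          rw [Matrix.map_mul, ← PMod.homMod_apply, hL, Matrix.map_sub _ (map_sub _),
            Matrix.map_sub _ (map_sub _), Matrix.map_one _ (map_zero _) (map_one _),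
            Matrix.map_mul, Matrix.map_mul, ei₁, ei₂, el₁, el₂, Matrix.map_zero _ (map_zero _),
            ← Matrix.map_mul, ← Matrix.map_mul,
            ← Matrix.map_one (red (hs.id_le n)) (map_zero _) (map_one _),
            ← Matrix.map_sub _ (map_sub _), ← Matrix.map_sub _ (map_sub _), ← Matrix.map_mul,
            (rn n).new, Matrix.map_zero _ (map_zero _)]⟩ }

end FLTAgent.RT
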