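import Fermat.Agent.RT.World.Chain
import Fermat.Agent.RT.World.System

/-!
# Descending a point of a patched world to the base level

A point of the base ring which is Steinberg with the prescribed signs at every auxiliary prime
kills the kernel of the action on the base level.
-/

set_option autoImplicit false
set_option linter.unusedSectionVars false

noncomputable section

open IsLocalRing Matrix FLTAgent.Deformation

namespace FLTAgent.RT

open Patch

variable {𝒪 : Type} [CommRing 𝒪] [IsDomain 𝒪] [IsDiscreteValuationRing 𝒪]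
  [IsAdicComplete (maximalIdeal 𝒪) 𝒪] [Finite (ResidueField 𝒪)] [CharZero 𝒪]
  {ι X : Type} [Finite ι] [Finite X] [DecidableEq ι] {D : ι → LocalDatum 𝒪} {r : ℕ}

local instance adicCompletePoint (r : ℕ) :
    IsAdicComplete (maximalIdeal (MvPowerSeries (Fin r) 𝒪)) (MvPowerSeries (Fin r) 𝒪) :=
  isAdicComplete_powerSeries

local instance finiteResiduePoint (r : ℕ) : Finite (ResidueField (MvPowerSeries (Fin r) 𝒪)) :=
  finite_residueField_powerSeries

theorem maximalIdeal_pow_le_comap_constantCoeff (r n : ℕ) :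
    maximalIdeal (MvPowerSeries (Fin r) 𝒪) ^ n ≤
      (maximalIdeal 𝒪 ^ n).comap (MvPowerSeries.constantCoeff (σ := Fin r) (R := 𝒪)) := by
  refine (Ideal.pow_right_mono ?_ n).trans (Ideal.le_comap_pow _ n)
  intro f hf
  exact mem_maximalIdeal_powerSeries.mp hf

/-- Setting the diamond parameters to zero in a truncation. -/
def augT (r n : ℕ) : STrunc 𝒪 r n →+* 𝒪 ⧸ maximalIdeal 𝒪 ^ n :=
  Ideal.quotientMap (maximalIdeal 𝒪 ^ n) MvPowerSeries.constantCoeff
    (maximalIdeal_pow_le_comap_constantCoeff r n)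

theorem augT_red {r n k : ℕ} (h : n ≤ k) (w : STrunc 𝒪 r k) (hw : augT r k w = 0) :
    augT r n (red (S := MvPowerSeries (Fin r) 𝒪) h w) = 0 := by
  obtain ⟨z, rfl⟩ := Ideal.Quotient.mk_surjective w
  rw [red_mk, augT, Ideal.quotientMap_mk]
  rw [augT, Ideal.quotientMap_mk] at hw
  exact Ideal.Quotient.eq_zero_iff_mem.mpr
    (Ideal.pow_le_pow_right h (Ideal.Quotient.eq_zero_iff_mem.mp hw))

/-- A map from a power series ring to `𝒪` sends the maximal ideal into the maximal ideal. -/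
theorem algHom_mem_maximalIdeal {τ : Type} [Finite τ] (g : MvPowerSeries τ 𝒪 →ₐ[𝒪] 𝒪)
    {f : MvPowerSeries τ 𝒪} (hf : f ∈ maximalIdeal (MvPowerSeries τ 𝒪)) :
    g f ∈ maximalIdeal 𝒪 := by
  have : Finite (𝒪 ⧸ maximalIdeal 𝒪) := ‹Finite (ResidueField 𝒪)›
  obtain ⟨k, hk⟩ := exists_map_pow_eq_zero
    ((Ideal.Quotient.mk (maximalIdeal 𝒪)).comp g.toRingHom)
    (A := 𝒪 ⧸ maximalIdeal 𝒪) hf
  rw [← map_pow] at hk
  have h : g f ^ k ∈ maximalIdeal 𝒪 := by
    rw [← map_pow]
    refine Ideal.Quotient.eq_zero_iff_mem.mp ?_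
    rw [map_pow] at hk ⊢
    exact hk
  exact (maximalIdeal.isMaximal 𝒪).isPrime.mem_of_pow_mem k h

theorem algHom_mem_pow {τ : Type} [Finite τ] (g : MvPowerSeries τ 𝒪 →ₐ[𝒪] 𝒪)
    {f : MvPowerSeries τ 𝒪} {n : ℕ} (hf : f ∈ maximalIdeal (MvPowerSeries τ 𝒪) ^ n) :
    g f ∈ maximalIdeal 𝒪 ^ n := by
  have hle : maximalIdeal (MvPowerSeries τ 𝒪) ≤ (maximalIdeal 𝒪).comap g :=
    fun f hf => algHom_mem_maximalIdeal g hf
  exact ((Ideal.pow_right_mono hle n).trans (Ideal.le_comap_pow _ n)) hf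

/-- Points congruent on the variables are congruent. -/
theorem algHom_congr {τ : Type} [Finite τ] (g g' : MvPowerSeries τ 𝒪 →ₐ[𝒪] 𝒪) (n : ℕ)
    (h : ∀ j, g (MvPowerSeries.X j) - g' (MvPowerSeries.X j) ∈ maximalIdeal 𝒪 ^ n)
    (f : MvPowerSeries τ 𝒪) : g f - g' f ∈ maximalIdeal 𝒪 ^ n := by
  have := finite_quotient_pow (S := 𝒪) n
  rw [← Ideal.Quotient.eq]
  exact DFunLike.congr_fun (algHom_finite_ext
    (g := (Ideal.Quotient.mkₐ 𝒪 (maximalIdeal 𝒪 ^ n)).comp g)
    (g' := (Ideal.Quotient.mkₐ 𝒪 (maximalIdeal 𝒪 ^ n)).comp g')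
    fun j => Ideal.Quotient.eq.mpr (h j)) f

/-- A sequence of points has a limit point along a subsequence. -/
theorem exists_point_limit {τ : Type} [Finite τ] (xs : ℕ → MvPowerSeries τ 𝒪 →ₐ[𝒪] 𝒪) :
    ∃ (x' : MvPowerSeries τ 𝒪 →ₐ[𝒪] 𝒪) (u : ℕ → ℕ), StrictMono u ∧
      ∀ n f, x' f - xs (u n) f ∈ maximalIdeal 𝒪 ^ n := by
  obtain ⟨ξ, u, hu, hξ⟩ := exists_subseq_limit fun n (j : τ) => xs n (MvPowerSeries.X j)
  have hξm : ∀ j, ξ j ∈ maximalIdeal 𝒪 := fun j => by
    have h1 := hξ 1 j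
    rw [pow_one] at h1
    have := add_mem h1 (algHom_mem_maximalIdeal (xs (u 1))
      (span_X_le_maximalIdeal (Ideal.subset_span ⟨j, rfl⟩)))
    rwa [sub_add_cancel] at this
  refine ⟨psEval ξ hξm, u, hu, fun n => algHom_congr (psEval ξ hξm) (xs (u n)) n fun j => ?_⟩
  rw [psEval_X]
  exact hξ n j

theorem algHom_eq_of_limit {τ : Type} [Finite τ] {x' : MvPowerSeries τ 𝒪 →ₐ[𝒪] 𝒪}
    {xs : ℕ → MvPowerSeries τ 𝒪 →ₐ[𝒪] 𝒪}
    (h : ∀ n f, x' f - xs n f ∈ maximalIdeal 𝒪 ^ n) {v : ℕ → ℕ} (hv : StrictMono v)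
    {F : MvPowerSeries τ 𝒪} {Fs : ℕ → MvPowerSeries τ 𝒪}
    (hF : ∀ n, F - Fs (v n) ∈ maximalIdeal (MvPowerSeries τ 𝒪) ^ n) {c : 𝒪}
    (hc : ∀ n, xs n (Fs n) = c) : x' F = c := by
  refine sub_eq_zero.mp (eq_zero_of_forall_mem_pow (I := maximalIdeal 𝒪) fun n => ?_)
  have h1 := algHom_mem_pow x' (hF n)
  rw [map_sub] at h1
  have h2 := Ideal.pow_le_pow_right (hv.id_le n) (h (v n) (Fs (v n)))
  rw [hc (v n)] at h2
  have := add_mem h1 h2
  rwa [sub_add_sub_cancel] at this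

/-- **Setting the diamond parameters to zero.** A series acting by zero after setting `y = 0` lies
in every prime of the support at which the diamond parameters degenerate. -/
theorem PMod.mem_of_aug {τ : Type} [Finite τ] {d : ℕ}
    (M : PMod (MvPowerSeries (Fin r) 𝒪) τ d) (hint : M.Integral 𝒪)
    {P : Ideal (MvPowerSeries τ 𝒪)} [P.IsPrime] (hkerP : RingHom.ker (M.hom (O := 𝒪)) ≤ P)
    (g : Fin r → MvPowerSeries τ 𝒪) (K : ℕ)
    (hrel : ∀ j, ((1 + algebraMap (MvPowerSeries (Fin r) 𝒪) M.alg (MvPowerSeries.X j)) ^ 2 -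
      (M.toAlg (g j) ^ 2 - (1 + 1)) *
        (1 + algebraMap (MvPowerSeries (Fin r) 𝒪) M.alg (MvPowerSeries.X j)) + 1) ^ K = 0)
    (hg : ∀ j, g j - (1 + 1) ∈ P) {F : MvPowerSeries τ 𝒪}
    (hcc : ∀ i j, MvPowerSeries.constantCoeff (M.hom F i j) = 0) : F ∈ P := by
  letI := (M.toAlg (O := 𝒪)).toAlgebra
  have : Algebra.IsIntegral (MvPowerSeries τ 𝒪) M.alg := ⟨hint.isIntegral⟩
  obtain ⟨P', -, hP', hP'c⟩ := Ideal.exists_ideal_over_prime_of_isIntegral P (⊥ : Ideal M.alg)
    (by rw [← RingHom.ker_eq_comap_bot]; exact M.ker_toAlg.le.trans hkerP)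
  have hy : ∀ j : Fin r,
      algebraMap (MvPowerSeries (Fin r) 𝒪) M.alg (MvPowerSeries.X j) ∈ P' := by
    intro j
    have hrelj := hrel j
    set y := algebraMap (MvPowerSeries (Fin r) 𝒪) M.alg (MvPowerSeries.X j)
    set t : M.alg := M.toAlg (g j)
    have ht2 : t - (1 + 1) ∈ P' := by
      have := hg j
      rw [← hP'c, Ideal.mem_comap, RingHom.algebraMap_toAlgebra, map_sub, map_add, map_one] at this
      exact this
    refine hP'.mem_of_pow_mem 2 (hP'.mem_of_pow_mem K ?_)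
    have h1 : ((1 + y) ^ 2 - (t ^ 2 - (1 + 1)) * (1 + y) + 1) - y ^ 2 ∈ P' := by
      rw [show ((1 + y) ^ 2 - (t ^ 2 - (1 + 1)) * (1 + y) + 1) - y ^ 2 =
        (t - (1 + 1)) * (-(t + (1 + 1)) * (1 + y)) by ring]
      exact P'.mul_mem_right _ ht2
    have h3 : (y ^ 2) ^ K -
        ((1 + y) ^ 2 - (t ^ 2 - (1 + 1)) * (1 + y) + 1) ^ K ∈ P' :=
      Ideal.mem_of_dvd _ (sub_dvd_pow_sub_pow _ _ _) (by rw [← neg_sub]; exact P'.neg_mem h1)
    rwa [hrelj, sub_zero] at h3
  set I := Ideal.span (Set.range (MvPowerSeries.X (σ := Fin r) (R := 𝒪))) with hI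
  have hIP : ∀ c ∈ I, algebraMap _ M.alg c ∈ P' := fun c hc => by
    rw [← Ideal.mem_comap]
    refine (Ideal.span_le.mpr ?_) hc
    rintro _ ⟨j, rfl⟩
    exact hy j
  have hent : ∀ i j, M.hom F i j ∈ I := fun i j => by
    have h1 := sub_truncTotal_mem_span_X_pow (M.hom F i j) 1
    rw [pow_one] at h1
    have hC : ((MvPowerSeries.truncTotal 1 (M.hom F i j) : MvPolynomial (Fin r) 𝒪) :
        MvPowerSeries (Fin r) 𝒪) = 0 := by
      ext e
      rw [MvPolynomial.coeff_coe, MvPowerSeries.coeff_truncTotal_eq_ite, map_zero]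
      split
      · next h =>
        have he : e = 0 := (Finsupp.degree_eq_zero_iff _).mp (by omega)
        subst he
        simpa using hcc i j
      · rfl
    rwa [hC, sub_zero] at h1
  have hch : Polynomial.aeval (M.toAlg F) (M.hom F).charpoly = 0 := Subtype.ext (by
    rw [Polynomial.aeval_subalgebra_coe, ZeroMemClass.coe_zero]
    exact Matrix.aeval_self_charpoly _)
  have hdeg : (M.hom F).charpoly.natDegree = d := by
    rw [Matrix.charpoly_natDegree_eq_dim, Fintype.card_fin]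
  rw [Polynomial.aeval_eq_sum_range, Finset.sum_range_succ, hdeg] at hch
  have hlead := (Matrix.charpoly_monic (M.hom F)).coeff_natDegree
  rw [hdeg] at hlead
  rw [hlead, one_smul] at hch
  have hY : M.toAlg F ∈ P' := by
    refine hP'.mem_of_pow_mem d ?_
    rw [eq_neg_of_add_eq_zero_right hch]
    refine P'.neg_mem (Ideal.sum_mem _ fun e he => ?_)
    rw [Algebra.smul_def]
    exact Ideal.mul_mem_right _ _ (hIP _ (charpoly_coeff_mem hent (Finset.mem_range.mp he)))
  rw [← hP'c]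
  exact hY

variable [Fintype ι]

/-- The component of a point which is Steinberg with signs `ε` everywhere. -/
theorem compKer_le_ker_point (x' : MvPowerSeries (LocVar ι X) 𝒪 →ₐ[𝒪] 𝒪) {ε : ι → 𝒪}
    (hε : ∀ i, (D i).SignOK (ε i))
    (hrel : ∀ i, (D i).Rel 2 fun k => x' (locCoord i k))
    (hnorm : ∀ i, (D i).IsNorm fun k => x' (locCoord i k))
    (htr : ∀ i, x' (frobTrace D i) = ε i * ((D i).q + 1))
    (hram : ∀ i, ∃ k : Fin 8, 4 ≤ k ∧ x' (locCoord i k) ≠ 0) :
    compKer D (stType ε Finset.univ) (stType_ok hε Finset.univ) ≤ RingHom.ker x' := by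
  have : (RingHom.ker x').IsPrime := RingHom.ker_isPrime x'
  obtain ⟨c, hc, hcP, hcl⟩ := exists_compKer_le D (RingHom.ker x')
    (fun i => LocalDatum.Rel.of_ker x' (hrel i))
    (fun i T hT => ⟨Ideal.Quotient.eq_zero_iff_mem.mpr (RingHom.mem_ker.mpr (hnorm i T hT).1),
      Ideal.Quotient.eq_zero_iff_mem.mpr (RingHom.mem_ker.mpr (hnorm i T hT).2)⟩)
  suffices h : c = stType ε Finset.univ by subst h; exact hcP
  funext i
  rcases hcl i with ⟨-, hN⟩ | ⟨e, he, -, -, htr'⟩
  · obtain ⟨k, hk, hkm⟩ := hram i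
    exact absurd (RingHom.mem_ker.mp (hN k hk)) hkm
  · have h1 := RingHom.mem_ker.mp (Ideal.Quotient.eq_zero_iff_mem.mp htr')
    have h2 : x' (frobTrace D i) - e * (((D i).q : 𝒪) + 1) = 0 := by
      rw [← h1, map_sub, map_mul, map_add, map_natCast, map_one, AlgHom.commutes]
      rfl
    rw [htr i, ← sub_mul, mul_eq_zero] at h2
    rcases h2 with h2 | h2
    · rw [he, ← sub_eq_zero.mp h2]
      simp [stType]
    · exact absurd h2 (by exact_mod_cast Nat.succ_ne_zero (D i).q)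

variable (sys : System D X r)

/-- **The point descends.** -/
theorem System.point_kills (h2 : IsUnit (2 : 𝒪))
    (hr : Nat.card ((Σ i, Fin (D i).h0) ⊕ X) ≤ r) (h0 : 0 < sys.rank ∅) {ε : ι → 𝒪}
    (hε : ∀ i, (D i).SignOK (ε i))
    {R₀ : Type} [CommRing R₀] [Algebra 𝒪 R₀]
    (π : ℕ → MvPowerSeries (LocVar ι X) 𝒪 →ₐ[𝒪] R₀) (hπ : ∀ n, Function.Surjective (π n))
    (φ₀ : R₀ →ₐ[𝒪] Matrix (Fin (sys.rank Finset.univ)) (Fin (sys.rank Finset.univ)) 𝒪)
    (hbase : ∀ n f, (sys.act n Finset.univ f).map (augT r n) =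
      (φ₀ (π n f)).map (Ideal.Quotient.mk (maximalIdeal 𝒪 ^ n)))
    (x : R₀ →ₐ[𝒪] 𝒪) (hrel : ∀ n i, (D i).Rel 2 fun k => x (π n (locCoord i k)))
    (hnorm : ∀ n i, (D i).IsNorm fun k => x (π n (locCoord i k)))
    (htr : ∀ n i, x (π n (frobTrace D i)) = ε i * ((D i).q + 1))
    (hram : ∃ K, ∀ n i, ∃ k : Fin 8, 4 ≤ k ∧ x (π n (locCoord i k)) ∉ maximalIdeal 𝒪 ^ K)
    (hdia : ∀ n j, x (π n (sys.dia n Finset.univ j)) = 2)
    {a : R₀} (ha : φ₀ a = 0) : x a = 0 := by
  classical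
  obtain ⟨s, hs, L, W, hL, hint, hW⟩ := sys.exists_world
  have hchain : RingHom.ker ((L Finset.univ).hom (O := 𝒪)) ≤
      compKer D (stType ε Finset.univ) (stType_ok hε Finset.univ) := by
    rw [← (hW Finset.univ).2]
    exact W.ker_le_compKer h2 hr (by rw [(hW ∅).1]; exact h0) hε Finset.univ
  obtain ⟨x', u, hu, hx'⟩ := exists_point_limit fun n => x.comp (π (s n))
  have heq : ∀ f c, (∀ n, x (π (s (u n)) f) = c) → x' f = c := fun f c h =>
    algHom_eq_of_limit hx' strictMono_id (Fs := fun _ => f)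
      (fun n => by rw [sub_self]; exact Ideal.zero_mem _) h
  have hker : compKer D (stType ε Finset.univ) (stType_ok hε Finset.univ) ≤ RingHom.ker x' := by
    refine compKer_le_ker_point x' hε (fun i => ?_) (fun i T hT => ?_) (fun i => ?_) fun i => ?_
    · have h1 : (D i).Rel 2 fun k => Ideal.Quotient.mk (RingHom.ker x') (locCoord i k) := by
        refine LocalDatum.Rel.of_forall_quotient
          (J := fun n => RingHom.ker
            ((Ideal.Quotient.mkₐ 𝒪 (maximalIdeal 𝒪 ^ n)).comp (x.comp (π (s (u n))))))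
          (fun f hf => RingHom.mem_ker.mpr
            (eq_zero_of_forall_mem_pow (I := maximalIdeal 𝒪) fun n => ?_)) fun n => ?_
        · have h3 : x (π (s (u n)) f) ∈ maximalIdeal 𝒪 ^ n :=
            Ideal.Quotient.eq_zero_iff_mem.mp (RingHom.mem_ker.mp (hf n))
          have h4 : x' f - x (π (s (u n)) f) ∈ maximalIdeal 𝒪 ^ n := hx' n f
          have := add_mem h4 h3
          rwa [sub_add_cancel] at this
        · exact LocalDatum.Rel.of_ker _ ((hrel (s (u n)) i).map (Ideal.Quotient.mkₐ 𝒪 _))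
      exact h1.map (Ideal.Quotient.liftₐ (RingHom.ker x') x' fun _ h => h)
    · exact ⟨heq _ 0 fun n => (hnorm (s (u n)) i T hT).1, heq _ 0 fun n => (hnorm (s (u n)) i T hT).2⟩
    · exact heq _ _ fun n => htr (s (u n)) i
    · obtain ⟨K, hK⟩ := hram
      obtain ⟨k, hk, hkm⟩ := hK (s (u K)) i
      refine ⟨k, hk, fun h0 => hkm ?_⟩
      have h1 := hx' K (locCoord i k)
      rw [h0, zero_sub, neg_mem_iff] at h1
      exact h1
  have : (RingHom.ker x').IsPrime := RingHom.ker_isPrime x'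
  -- the converging lifts
  choose f₀ hf₀ using fun n => hπ (s (u n)) a
  have := finite_residueField_powerSeries (O := 𝒪) (τ := LocVar ι X)
  have := isAdicComplete_powerSeries (σ := LocVar ι X) (𝒪 := 𝒪)
  let seq : ℕ → Option (Fin r) → MvPowerSeries (LocVar ι X) 𝒪 := fun n o =>
    o.elim (f₀ n) fun j => sys.dia (s (u n)) Finset.univ j
  obtain ⟨F, v, hv, hF⟩ := exists_subseq_limit seq
  set M := L Finset.univ
  have hFmod : ∀ o n, ∃ (m : ℕ) (hm : n ≤ s (u (v m))),
      (M.hom (F o)).map (Ideal.Quotient.mk (maximalIdeal (MvPowerSeries (Fin r) 𝒪) ^ n)) =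
        (sys.act (s (u (v m))) Finset.univ (seq (v m) o)).map (red hm) := fun o n => by
    obtain ⟨N, hN⟩ := M.exists_hom_mem_pow (O := 𝒪) n
    have hk : n ≤ u (v (n + N)) :=
      ((Nat.le_add_right n N).trans (hv.id_le _)).trans (hu.id_le _)
    refine ⟨n + N, hk.trans (hs.id_le _), ?_⟩
    have h1 : M.homMod n (F o) = M.homMod n (seq (v (n + N)) o) := Matrix.ext fun i j => by
      rw [PMod.homMod_apply, PMod.homMod_apply, Matrix.map_apply, Matrix.map_apply,
        Ideal.Quotient.eq, ← Matrix.sub_apply, ← map_sub]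
      exact hN _ (Ideal.pow_le_pow_right (Nat.le_add_left N n) (hF _ _)) i j
    rw [← PMod.homMod_apply, h1, ← M.homMod_red hk, hL]
    exact Matrix.ext fun i j => red_red hk (hs.id_le _) _
  have hFn : F none ∈ RingHom.ker x' := by
    refine PMod.mem_of_aug M (hint Finset.univ) (hchain.trans hker) (fun j => F (some j)) sys.K
      (fun j => ?_) (fun j => ?_) fun i j => ?_
    · refine Subtype.ext (matrix_eq_of_forall_map_eq fun n => ?_)
      obtain ⟨m, hm, he⟩ := hFmod (some j) n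
      rw [ZeroMemClass.coe_zero, Matrix.map_zero _ (map_zero _)]
      have h := congrArg (fun N => N.map (red hm)) (sys.dia_rel (s (u (v m))) Finset.univ j)
      simp only [Matrix.map_zero _ (map_zero _), ← one_add_one_eq_two] at h
      rw [← RingHom.mapMatrix_apply] at h
      simp only [map_pow, map_add, map_sub, map_mul, map_one, RingHom.mapMatrix_apply,
        algebraMap_red] at h
      simp only [SubmonoidClass.coe_pow, AddSubgroupClass.coe_sub, Subalgebra.coe_add,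
        Subalgebra.coe_mul, Subalgebra.coe_one, Subalgebra.coe_algebraMap, M.coe_toAlg]
      rw [← RingHom.mapMatrix_apply]
      simp only [map_pow, map_add, map_sub, map_mul, map_one, RingHom.mapMatrix_apply,
        matrixMap_algebraMap]
      rw [he]
      exact h
    · rw [RingHom.mem_ker, map_sub, map_add, map_one, algHom_eq_of_limit hx' hv
        (Fs := fun n => seq n (some j)) (fun n => hF n _) fun n => hdia (s (u n)) j]
      ring
    · refine eq_zero_of_forall_mem_pow (I := maximalIdeal 𝒪) fun n => ?_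
      obtain ⟨m, hm, he⟩ := hFmod none n
      have h1 := congrArg (augT r n) (congrFun (congrFun he i) j)
      have h2 := congrFun (congrFun (hbase (s (u (v m))) (f₀ (v m))) i) j
      rw [hf₀, ha, Matrix.map_apply, Matrix.map_apply, Matrix.zero_apply, map_zero] at h2
      exact Ideal.Quotient.eq_zero_iff_mem.mp (h1.trans (augT_red hm _ h2))
  refine (algHom_eq_of_limit hx' hv (Fs := fun n => seq n none) (fun n => hF n none)
    (c := x a) fun n => ?_).symm.trans (RingHom.mem_ker.mp hFn)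
  show x (π (s (u n)) (f₀ n)) = x a
  rw [hf₀]

end FLTAgent.RT
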