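import Fermat.Agent.RT.World.RaisePLimit

/-!
# Raising the level at `p`

A flat system at level `N` and truncated levels `N`, `N p` acted on through a common power series
ring whose action on the cokernel of the degeneracy maps factors through the variables `Xs` of a
second local condition. A point of the second condition which is Steinberg at every auxiliary
prime kills what dies on that cokernel at the base level.
-/

set_option autoImplicit false
set_option linter.unusedSectionVars false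

noncomputable section

open IsLocalRing Matrix FLTAgent.Deformation

namespace FLTAgent.RT

open Patch

variable {𝒪 : Type} [CommRing 𝒪] [IsDomain 𝒪] [IsDiscreteValuationRing 𝒪]
  [IsAdicComplete (maximalIdeal 𝒪) 𝒪] [Finite (ResidueField 𝒪)] [CharZero 𝒪]
  {ι Xf Xs : Type} [Finite ι] [Finite Xf] [Finite Xs] [DecidableEq ι]
  {D : ι → LocalDatum 𝒪} {r : ℕ}

local instance adicCompleteRaisePMain (r : ℕ) :
    IsAdicComplete (maximalIdeal (MvPowerSeries (Fin r) 𝒪)) (MvPowerSeries (Fin r) 𝒪) :=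
  isAdicComplete_powerSeries

local instance finiteResidueRaisePMain (r : ℕ) : Finite (ResidueField (MvPowerSeries (Fin r) 𝒪)) :=
  finite_residueField_powerSeries

local instance isDomainRaisePMain (r : ℕ) : IsDomain (MvPowerSeries (Fin r) 𝒪) :=
  NoZeroDivisors.to_isDomain _

local instance adicCompleteLoc {Y : Type} [Finite Y] :
    IsAdicComplete (maximalIdeal (MvPowerSeries (LocVar ι Y) 𝒪)) (MvPowerSeries (LocVar ι Y) 𝒪) :=
  isAdicComplete_powerSeries

theorem inclPS_sub_mem_pow {Y Z : Type} [Finite Y] [Finite Z] (σ : LocVar ι Y → LocVar ι Z)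
    {g g' : MvPowerSeries (LocVar ι Y) 𝒪} {n : ℕ}
    (h : g - g' ∈ maximalIdeal (MvPowerSeries (LocVar ι Y) 𝒪) ^ n) :
    inclPS σ g - inclPS σ g' ∈ maximalIdeal (MvPowerSeries (LocVar ι Z) 𝒪) ^ n := by
  rw [← map_sub]
  exact ((Ideal.pow_right_mono (fun z hz => inclPS_mem_maximalIdeal σ hz) n).trans
    (Ideal.le_comap_pow _ n)) h

/-- The retraction onto the coordinates of the first condition. -/
def retLeft (g : Xs → MvPowerSeries (LocVar ι Xf) 𝒪)
    (hg : ∀ j, g j ∈ maximalIdeal (MvPowerSeries (LocVar ι Xf) 𝒪)) :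
    MvPowerSeries (LocVar ι (Xf ⊕ Xs)) 𝒪 →ₐ[𝒪] MvPowerSeries (LocVar ι Xf) 𝒪 :=
  psEval (Sum.elim (fun p => MvPowerSeries.X (Sum.inl p))
      (Sum.elim (fun x => MvPowerSeries.X (Sum.inr x)) g)) (by
    rintro (p | x | j)
    · exact span_X_le_maximalIdeal (Ideal.subset_span ⟨_, rfl⟩)
    · exact span_X_le_maximalIdeal (Ideal.subset_span ⟨_, rfl⟩)
    · exact hg j)

/-- The retraction onto the coordinates of the second condition. -/
def retRight (g : Xf → MvPowerSeries (LocVar ι Xs) 𝒪)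
    (hg : ∀ j, g j ∈ maximalIdeal (MvPowerSeries (LocVar ι Xs) 𝒪)) :
    MvPowerSeries (LocVar ι (Xf ⊕ Xs)) 𝒪 →ₐ[𝒪] MvPowerSeries (LocVar ι Xs) 𝒪 :=
  psEval (Sum.elim (fun p => MvPowerSeries.X (Sum.inl p))
      (Sum.elim g fun y => MvPowerSeries.X (Sum.inr y))) (by
    rintro (p | x | j)
    · exact span_X_le_maximalIdeal (Ideal.subset_span ⟨_, rfl⟩)
    · exact hg x
    · exact span_X_le_maximalIdeal (Ideal.subset_span ⟨_, rfl⟩))

theorem retLeft_inclPS (g : Xs → MvPowerSeries (LocVar ι Xf) 𝒪)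
    (hg : ∀ j, g j ∈ maximalIdeal (MvPowerSeries (LocVar ι Xf) 𝒪))
    (t : MvPowerSeries (LocVar ι Xf) 𝒪) : retLeft g hg (inclPS leftVar t) = t := by
  refine DFunLike.congr_fun (powerSeries_algHom_ext (f := (retLeft g hg).comp (inclPS leftVar))
    (g := AlgHom.id 𝒪 _) (fun x => ?_) fun x => ?_) t
  · rw [AlgHom.comp_apply, inclPS_X, AlgHom.id_apply, retLeft, psEval_X]
    rcases x with p | y <;> rfl
  · rw [AlgHom.comp_apply, inclPS_X, retLeft, psEval_X]
    rcases x with p | y <;> exact span_X_le_maximalIdeal (Ideal.subset_span ⟨_, rfl⟩)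

theorem retRight_locCoord (g : Xf → MvPowerSeries (LocVar ι Xs) 𝒪)
    (hg : ∀ j, g j ∈ maximalIdeal (MvPowerSeries (LocVar ι Xs) 𝒪)) (i : ι) (k : Fin 8) :
    retRight g hg (locCoord i k) = locCoord i k := psEval_X _ _ _

theorem retLeft_locCoord (g : Xs → MvPowerSeries (LocVar ι Xf) 𝒪)
    (hg : ∀ j, g j ∈ maximalIdeal (MvPowerSeries (LocVar ι Xf) 𝒪)) (i : ι) (k : Fin 8) :
    retLeft g hg (locCoord i k) = locCoord i k := psEval_X _ _ _

/-- A patched module of the second condition whose support contains the special prime of the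
component Steinberg everywhere contains that component. -/
theorem ker_le_compKer_of_special [DecidableEq Xf] [Fintype ι] (h2 : IsUnit (2 : 𝒪))
    (hrs : Nat.card ((Σ i, Fin (D i).h0) ⊕ Xs) ≤ r) {ε : ι → 𝒪} (hε : ∀ i, (D i).SignOK (ε i))
    (s : Finset Xf) {e : ℕ} (Cs : PMod (MvPowerSeries (Fin r) 𝒪) (LocVar ι Xs) e)
    (hint : Cs.Integral 𝒪)
    (hrel : ∀ i, (D i).Rel 2 fun k =>
      Ideal.Quotient.mk (RingHom.ker (Cs.hom (O := 𝒪))) (locCoord i k))
    (hnorm : ∀ i, (D i).IsNorm fun k =>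
      Ideal.Quotient.mk (RingHom.ker (Cs.hom (O := 𝒪))) (locCoord i k))
    (F : MvPowerSeries (LocVar ι Xs) 𝒪 →ₐ[𝒪] MvPowerSeries (LocVar ι Xf) 𝒪)
    (hF : ∀ i k, F (locCoord i k) = locCoord i k)
    (hker : RingHom.ker (Cs.hom (O := 𝒪)) ≤
      (redKer D (stType ε Finset.univ) (stType_ok hε Finset.univ) s).comap F) :
    RingHom.ker (Cs.hom (O := 𝒪)) ≤
      compKer D (stType ε Finset.univ) (stType_ok hε Finset.univ) := by
  have hcfi : ∀ i, stType ε (Finset.univ : Finset ι) i = CompType.st (ε i) := fun i => by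
    simp [stType]
  have := isPrime_redKer D (stType ε Finset.univ) (stType_ok hε Finset.univ) s
  have : ((redKer D (stType ε Finset.univ) (stType_ok hε Finset.univ) s).comap F).IsPrime :=
    Ideal.comap_isPrime _ _
  obtain ⟨Q, hQ, hQP⟩ := Ideal.exists_minimalPrimes_le hker
  obtain ⟨cs, hcs, hcsQ, hcl⟩ := exists_component_of_rel h2 hrs Cs hint hrel hnorm hQ
  suffices h : cs = stType ε Finset.univ by
    subst h
    exact hQ.1.2.trans hcsQ.ge
  funext i
  rw [hcfi i]
  rcases hcl i with ⟨-, hN⟩ | ⟨e', he', -, -⟩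
  · exfalso
    have h := hQP (hN 5 (by decide))
    rw [Ideal.mem_comap, hF] at h
    exact locCoord_not_mem_redKer D _ _ s (hcfi i) h
  · rw [he']
    congr 1
    by_contra hne
    have h := hQP (hcsQ ▸ signElt_mem_compKer cs hcs he')
    rw [Ideal.mem_comap, map_signElt F hF] at h
    refine signElt_not_mem_redKer D _ _ s (hcfi i) ?_ h
    have e1 : e' * e' = 1 := signOK_mul_self (i := i) (he' ▸ hcs i)
    have e2 : ε i * ε i = 1 := signOK_mul_self (i := i) (D := D) (hε i)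
    rcases mul_self_eq_one_iff.mp e1 with h1 | h1 <;>
      rcases mul_self_eq_one_iff.mp e2 with h2' | h2'
    · exact absurd (h1.trans h2'.symm) hne
    · rw [h1, h2', show (-1 : 𝒪) - 1 = -2 by ring]; exact h2.neg
    · rw [h1, h2', sub_neg_eq_add, one_add_one_eq_two]; exact h2
    · exact absurd (h1.trans h2'.symm) hne

variable [Fintype ι] {fsys : System D Xf r} {c : 𝒪} {t : MvPowerSeries (LocVar ι Xf) 𝒪}
  {sys : PlaceRaise D Xf Xs r fsys c t}
  {xs : ℕ → MvPowerSeries (LocVar ι (Xf ⊕ Xs)) 𝒪 →ₐ[𝒪] 𝒪}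
  {f : ℕ → MvPowerSeries (LocVar ι Xs) 𝒪}

theorem RaiseLimit.x_eq (M : RaiseLimit sys xs f) {g : MvPowerSeries (LocVar ι (Xf ⊕ Xs)) 𝒪}
    (G : ℕ → MvPowerSeries (LocVar ι (Xf ⊕ Xs)) 𝒪) {b : 𝒪}
    (hg : ∀ n, g - G n ∈ maximalIdeal (MvPowerSeries (LocVar ι (Xf ⊕ Xs)) 𝒪) ^ n)
    (hb : ∀ n, xs (M.ν n) (G n) = b) : M.x g = b :=
  algHom_eq_of_limit (xs := fun n => xs (M.ν n)) M.x_conv strictMono_id (Fs := G) hg hb

theorem RaiseLimit.gF_mem (M : RaiseLimit sys xs f) (j : Xs) :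
    M.gF j ∈ maximalIdeal (MvPowerSeries (LocVar ι Xf) 𝒪) := by
  have h := M.gF_conv 1 j
  rw [pow_one] at h
  have := Ideal.add_mem _ h (sys.toF_mem (M.ν 1) j)
  rwa [sub_add_cancel] at this

theorem RaiseLimit.gS_mem (M : RaiseLimit sys xs f) (j : Xf) :
    M.gS j ∈ maximalIdeal (MvPowerSeries (LocVar ι Xs) 𝒪) := by
  have h := M.gS_conv 1 j
  rw [pow_one] at h
  have := Ideal.add_mem _ h (sys.toS_mem (M.ν 1) j)
  rwa [sub_add_cancel] at this

theorem RaiseLimit.A_ret (M : RaiseLimit sys xs f) (g : MvPowerSeries (LocVar ι (Xf ⊕ Xs)) 𝒪) :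
    M.A.hom g = M.L.hom (retLeft M.gF M.gF_mem g) := by
  rw [← M.A_left]
  refine M.A.hom_eq_restrict_ret leftVar (retLeft M.gF M.gF_mem) (fun x => ?_) g
  rw [retLeft, psEval_X]
  rcases x with p | x | j
  · simp only [Sum.elim_inl, inclPS_X]
    rw [show leftVar (Sum.inl p) = (Sum.inl p : LocVar ι (Xf ⊕ Xs)) from rfl, sub_self, map_zero]
  · simp only [Sum.elim_inl, Sum.elim_inr, inclPS_X]
    rw [show leftVar (Sum.inr x) = (Sum.inr (Sum.inl x) : LocVar ι (Xf ⊕ Xs)) from rfl, sub_self,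
      map_zero]
  · simp only [Sum.elim_inr]
    refine M.A.hom_eq_zero_of_limit M.le_ν M.A_map
      (fun n => MvPowerSeries.X (Sum.inr (Sum.inr j)) - inclPS leftVar (sys.toF (M.ν n) j))
      (fun n => ?_) fun n => sys.toF_eq (M.ν n) j
    rw [sub_sub_sub_cancel_left, ← neg_sub]
    exact neg_mem (inclPS_sub_mem_pow leftVar (M.gF_conv n j))

theorem RaiseLimit.x_ret (M : RaiseLimit sys xs f)
    (hxS : ∀ n j, xs n (MvPowerSeries.X (Sum.inr (Sum.inl j))) =
      xs n (inclPS rightVar (sys.toS n j)))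
    (g : MvPowerSeries (LocVar ι (Xf ⊕ Xs)) 𝒪) :
    M.x g = M.x (inclPS rightVar (retRight M.gS M.gS_mem g)) := by
  refine DFunLike.congr_fun (powerSeries_algHom_ext (f := M.x)
    (g := (M.x.comp (inclPS rightVar)).comp (retRight M.gS M.gS_mem)) (fun x => ?_)
    fun x => algHom_mem_maximalIdeal M.x (span_X_le_maximalIdeal (Ideal.subset_span ⟨x, rfl⟩))) g
  rw [AlgHom.comp_apply, AlgHom.comp_apply, retRight, psEval_X]
  rcases x with p | x | j
  · simp only [Sum.elim_inl, inclPS_X]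
    rfl
  · simp only [Sum.elim_inl, Sum.elim_inr]
    rw [← sub_eq_zero, ← map_sub]
    refine M.x_eq (fun n => MvPowerSeries.X (Sum.inr (Sum.inl x)) -
      inclPS rightVar (sys.toS (M.ν n) x)) (fun n => ?_) fun n => by rw [map_sub, hxS, sub_self]
    rw [sub_sub_sub_cancel_left, ← neg_sub]
    exact neg_mem (inclPS_sub_mem_pow rightVar (M.gS_conv n x))
  · simp only [Sum.elim_inr, inclPS_X]
    rfl

set_option maxHeartbeats 600000 in
/-- **Raising the level at `p`**: the point kills what dies on the cokernel at the base level. -/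
theorem PlaceRaise.point_eq_zero [DecidableEq Xf] (sys : PlaceRaise D Xf Xs r fsys c t)
    (h2 : IsUnit (2 : 𝒪)) (hrf : Nat.card ((Σ i, Fin (D i).h0) ⊕ Xf) ≤ r)
    (hrs : Nat.card ((Σ i, Fin (D i).h0) ⊕ Xs) ≤ r) (h0 : 0 < fsys.rank ∅) {ε : ι → 𝒪}
    (hε : ∀ i, (D i).SignOK (ε i)) (hc : IsUnit c) (u : Xf)
    (hct : algebraMap 𝒪 _ c ^ 2 - t ^ 2 ∈
      (maximalIdeal 𝒪).map (algebraMap 𝒪 (MvPowerSeries (LocVar ι Xf) 𝒪)) ⊔
        Ideal.span {MvPowerSeries.X (Sum.inr u)})
    (xs : ℕ → MvPowerSeries (LocVar ι (Xf ⊕ Xs)) 𝒪 →ₐ[𝒪] 𝒪)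
    (hrel : ∀ n i, (D i).Rel 2 fun k => xs n (locCoord i k))
    (hnorm : ∀ n i, (D i).IsNorm fun k => xs n (locCoord i k))
    (htr : ∀ n i, xs n (frobTrace D i) = ε i * ((D i).q + 1))
    (hram : ∃ K, ∀ n i, ∃ k : Fin 8, 4 ≤ k ∧ xs n (locCoord i k) ∉ maximalIdeal 𝒪 ^ K)
    (hxS : ∀ n j, xs n (MvPowerSeries.X (Sum.inr (Sum.inl j))) =
      xs n (inclPS rightVar (sys.toS n j)))
    (hdia : ∀ n j, xs n (sys.dia n j) = 2) (f : ℕ → MvPowerSeries (LocVar ι Xs) 𝒪) {a : 𝒪}
    (hfx : ∀ n, xs n (inclPS rightVar (f n)) = a)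
    (hbase : ∀ n, ((1 - sys.i₁ n * sys.l₁ n - sys.i₂ n * sys.l₂ n) *
      sys.actB n (inclPS rightVar (f n))).map (augT r n) = 0) : a = 0 := by
  classical
  obtain ⟨M⟩ := sys.exists_raiseLimit xs f
  have hcfok := stType_ok hε (Finset.univ : Finset ι)
  set cf := stType ε (Finset.univ : Finset ι)
  -- the special prime
  set rF := retLeft M.gF M.gF_mem with hrFdef
  set P₀ := redKer D cf hcfok ({u} : Finset Xf)
  have hP₀p : P₀.IsPrime := isPrime_redKer D cf hcfok _
  set P := P₀.comap rF with hPdef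
  have hPp : P.IsPrime := Ideal.comap_isPrime _ _
  have hkerA : RingHom.ker (M.A.hom (O := 𝒪)) ≤ P := fun g hg => by
    rw [RingHom.mem_ker, M.A_ret] at hg
    have h1 : rF g ∈ RingHom.ker (M.L.hom (O := 𝒪)) := RingHom.mem_ker.mpr hg
    have h2' := M.L_le hε h2 hrf h0 h1
    rw [hPdef, Ideal.mem_comap]
    exact compKer_le_redKer D cf hcfok ({u} : Finset Xf) h2'
  have hct' : algebraMap 𝒪 _ c ^ 2 - (inclPS leftVar t) ^ 2 ∈ P := by
    rw [hPdef, Ideal.mem_comap, map_sub, map_pow, map_pow, AlgHom.commutes, hrFdef,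
      retLeft_inclPS]
    refine (sup_le ?_ ?_ : _ ≤ P₀) hct
    · rw [Ideal.map_le_iff_le_comap]
      intro z hz
      exact algebraMap_mem_redKer D cf hcfok _ hz
    · rw [Ideal.span_singleton_le_iff_mem]
      exact X_mem_redKer D cf hcfok _ (Finset.mem_singleton_self u)
  have hcP : algebraMap 𝒪 (MvPowerSeries (LocVar ι (Xf ⊕ Xs)) 𝒪) c ∉ P := fun h =>
    hPp.ne_top (Ideal.eq_top_of_isUnit_mem _ h (hc.map _))
  -- the cokernel
  obtain ⟨e, C, π, σ, hπσ, hσπ, hπ⟩ := exists_coker M.A M.B M.i₁ M.i₂ M.l₁ M.l₂ M.l₁i₁ M.l₁i₂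
    M.l₂i₁ M.l₂i₂ M.i₁_act M.i₂_act
  have hkerC : RingHom.ker (C.hom (O := 𝒪)) ≤ P := ker_coker_le_of_nilpotent
    (PMod.Integral.of_restrict (σ := leftVar) (M.A_left.symm ▸ M.L_int))
    M.j₁s₁ M.j₂s₁ M.j₁_act M.j₂_act M.T_comm M.T_nil M.j₁i₁ M.j₁i₂ M.j₂i₁ M.j₂i₂ hσπ hπ hkerA
    hct' hcP
  have hCπ : ∀ g : MvPowerSeries (LocVar ι (Xf ⊕ Xs)) 𝒪,
      C.hom g = π * ((1 - M.i₁ * M.l₁ - M.i₂ * M.l₂) * M.B.hom g) * σ := fun g => by
    rw [← hσπ, ← Matrix.mul_assoc π (σ * π), ← Matrix.mul_assoc π σ, hπσ, Matrix.one_mul,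
      M.B.mul_hom C π hπ, Matrix.mul_assoc, hπσ, Matrix.mul_one]
  have hquad : ∀ j, ((1 + algebraMap (MvPowerSeries (Fin r) 𝒪) C.alg (MvPowerSeries.X j)) ^ 2 -
      (C.toAlg (M.gB (some j)) ^ 2 - (1 + 1)) *
        (1 + algebraMap (MvPowerSeries (Fin r) 𝒪) C.alg (MvPowerSeries.X j)) + 1) ^ sys.K = 0 :=
    fun j => by
    refine dia_rel_coker M.B C π σ hπσ hπ (M.gB (some j)) j sys.K ?_
    have hπe : π * (1 - M.i₁ * M.l₁ - M.i₂ * M.l₂) = π := by
      rw [← hσπ, ← Matrix.mul_assoc, hπσ, Matrix.one_mul]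
    rw [← hπe, Matrix.mul_assoc]
    refine (congrArg (π * ·) ?_).trans (Matrix.mul_zero π)
    refine matrix_eq_of_forall_map_eq fun n => ?_
    obtain ⟨m, hm, he⟩ := M.B.exists_hom_map_eq M.le_ν M.B_map
      (fun n => sys.dia (M.ν n) j) (fun n => M.gB_conv n j) n
    rw [Matrix.map_zero _ (map_zero _)]
    have h := congrArg (fun N => N.map (red (hm.trans (M.le_ν m)))) (sys.dia_rel (M.ν m) j)
    simp only [Matrix.map_zero _ (map_zero _), Matrix.map_mul] at h
    simp only [← one_add_one_eq_two] at h ⊢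
    rw [Matrix.map_mul, ← map_mk_red hm (1 - M.i₁ * M.l₁ - M.i₂ * M.l₂), M.coker_map,
      map_red_red, ← RingHom.mapMatrix_apply, ← RingHom.mapMatrix_apply]
    rw [← RingHom.mapMatrix_apply, ← RingHom.mapMatrix_apply] at h
    simp only [map_pow, map_add, map_sub, map_mul, map_one, RingHom.mapMatrix_apply,
      algebraMap_red, ← he, matrixMap_algebraMap] at h ⊢
    exact h
  have hCint : C.Integral 𝒪 := integral_of_quad C (fun j => M.gB (some j)) sys.K hquad
  set rS := retRight M.gS M.gS_mem with hrSdef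
  have hCret : ∀ g, C.hom g = (C.restrict rightVar).hom (rS g) := fun g => by
    refine C.hom_eq_restrict_ret rightVar rS (fun x => ?_) g
    rw [hrSdef, retRight, psEval_X]
    rcases x with p | x | j
    · simp only [Sum.elim_inl, inclPS_X]
      rw [show rightVar (Sum.inl p) = (Sum.inl p : LocVar ι (Xf ⊕ Xs)) from rfl, sub_self,
        map_zero]
    · simp only [Sum.elim_inl, Sum.elim_inr]
      rw [hCπ, M.B.mul_hom_eq_zero_of_limit M.le_ν M.B_map (1 - M.i₁ * M.l₁ - M.i₂ * M.l₂)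
        (fun m => 1 - sys.i₁ m * sys.l₁ m - sys.i₂ m * sys.l₂ m) M.coker_map
        (fun n => MvPowerSeries.X (Sum.inr (Sum.inl x)) - inclPS rightVar (sys.toS (M.ν n) x))
        (fun n => ?_) fun n => sys.toS_eq (M.ν n) x, Matrix.mul_zero, Matrix.zero_mul]
      rw [sub_sub_sub_cancel_left, ← neg_sub]
      exact neg_mem (inclPS_sub_mem_pow rightVar (M.gS_conv n x))
    · simp only [Sum.elim_inr, inclPS_X]
      rw [show rightVar (Sum.inr j) = (Sum.inr (Sum.inr j) : LocVar ι (Xf ⊕ Xs)) from rfl, sub_self,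
        map_zero]
  have hCsint : (C.restrict rightVar).Integral 𝒪 := hCint.restrict rS hCret
  have hkerBn : ∀ g, (∀ n, g ∈ RingHom.ker (sys.actB (M.ν n))) →
      g ∈ RingHom.ker (C.hom (O := 𝒪)) := fun g hg => by
    rw [RingHom.mem_ker, hCπ, M.B.hom_eq_zero_of_limit M.le_ν M.B_map (fun _ => g)
      (fun n => by rw [sub_self]; exact zero_mem _) fun n => RingHom.mem_ker.mp (hg n)]
    simp
  have hrelC : ∀ i, (D i).Rel 2 fun k =>
      Ideal.Quotient.mk (RingHom.ker ((C.restrict rightVar).hom (O := 𝒪))) (locCoord i k) :=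
    fun i => by
    have h1 : (D i).Rel 2 fun k => Ideal.Quotient.mk (RingHom.ker (C.hom (O := 𝒪)))
        (locCoord i k : MvPowerSeries (LocVar ι (Xf ⊕ Xs)) 𝒪) :=
      LocalDatum.Rel.of_forall_quotient hkerBn fun n => sys.relB (M.ν n) i
    have h2' := h1.map (Ideal.quotientMapₐ (RingHom.ker ((C.restrict rightVar).hom (O := 𝒪)))
      rS (I := RingHom.ker (C.hom (O := 𝒪))) fun g hg => by
        rw [Ideal.mem_comap, RingHom.mem_ker, ← hCret]
        exact RingHom.mem_ker.mp hg)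
    refine cast (congrArg _ (funext fun k => ?_)) h2'
    show Ideal.Quotient.mk _ (rS (locCoord i k)) = _
    rw [hrSdef, retRight_locCoord]
  have hnormC : ∀ i, (D i).IsNorm fun k =>
      Ideal.Quotient.mk (RingHom.ker ((C.restrict rightVar).hom (O := 𝒪))) (locCoord i k) :=
    fun i T' hT' => by
    have h1 : ∀ k, (∀ n, (locCoord i k : MvPowerSeries (LocVar ι (Xf ⊕ Xs)) 𝒪) ∈
          RingHom.ker (sys.actB (M.ν n))) →
        Ideal.Quotient.mk (RingHom.ker ((C.restrict rightVar).hom (O := 𝒪))) (locCoord i k) = 0 :=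
      fun k hk => Ideal.Quotient.eq_zero_iff_mem.mpr (RingHom.mem_ker.mpr (by
        rw [C.hom_restrict, locCoord_rightVar]
        exact RingHom.mem_ker.mp (hkerBn _ hk)))
    exact ⟨h1 0 fun n => Ideal.Quotient.eq_zero_iff_mem.mp (sys.normB (M.ν n) i T' hT').1,
      h1 2 fun n => Ideal.Quotient.eq_zero_iff_mem.mp (sys.normB (M.ν n) i T' hT').2⟩
  have hcompC := ker_le_compKer_of_special (Xf := Xf) h2 hrs hε ({u} : Finset Xf)
    (C.restrict rightVar) hCsint hrelC hnormC (rF.comp (inclPS rightVar))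
    (fun i k => by rw [AlgHom.comp_apply, locCoord_rightVar, hrFdef, retLeft_locCoord])
    (fun g hg => by
      rw [RingHom.mem_ker, C.hom_restrict] at hg
      exact hkerC (RingHom.mem_ker.mpr hg))
  -- the point
  let xS : MvPowerSeries (LocVar ι Xs) 𝒪 →ₐ[𝒪] 𝒪 := M.x.comp (inclPS rightVar)
  have hker : compKer D cf hcfok ≤ RingHom.ker xS := by
    refine compKer_le_ker_point xS hε (fun i => ?_) (fun i T' hT' => ?_) (fun i => ?_) fun i => ?_
    · have h1 : (D i).Rel 2 fun k => Ideal.Quotient.mk (RingHom.ker M.x)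
          (locCoord i k : MvPowerSeries (LocVar ι (Xf ⊕ Xs)) 𝒪) := by
        refine LocalDatum.Rel.of_forall_quotient
          (J := fun n => RingHom.ker
            ((Ideal.Quotient.mkₐ 𝒪 (maximalIdeal 𝒪 ^ n)).comp (xs (M.ν n))))
          (fun g hg => RingHom.mem_ker.mpr
            (eq_zero_of_forall_mem_pow (I := maximalIdeal 𝒪) fun n => ?_)) fun n => ?_
        · have h3 : xs (M.ν n) g ∈ maximalIdeal 𝒪 ^ n :=
            Ideal.Quotient.eq_zero_iff_mem.mp (RingHom.mem_ker.mp (hg n))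
          have := add_mem (M.x_conv n g) h3
          rwa [sub_add_cancel] at this
        · exact LocalDatum.Rel.of_ker _ ((hrel (M.ν n) i).map (Ideal.Quotient.mkₐ 𝒪 _))
      have h2' := h1.map (Ideal.Quotient.liftₐ (RingHom.ker M.x) M.x fun _ h => h)
      refine cast (congrArg _ (funext fun k => ?_)) h2'
      show M.x (locCoord i k) = M.x (inclPS rightVar (locCoord i k))
      rw [locCoord_rightVar]
    · have h1 : ∀ k, (∀ n, xs (M.ν n) (locCoord i k) = 0) → xS (locCoord i k) = 0 := fun k hk => by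
        show M.x (inclPS rightVar (locCoord i k)) = 0
        rw [locCoord_rightVar]
        exact M.x_eq (fun _ => locCoord i k) (fun n => by rw [sub_self]; exact zero_mem _) hk
      exact ⟨h1 0 fun n => (hnorm (M.ν n) i T' hT').1, h1 2 fun n => (hnorm (M.ν n) i T' hT').2⟩
    · have hfr : inclPS rightVar (frobTrace D i : MvPowerSeries (LocVar ι Xs) 𝒪) =
          (frobTrace D i : MvPowerSeries (LocVar ι (Xf ⊕ Xs)) 𝒪) := by
        have h := (D i).phiMat_map (inclPS (O := 𝒪) (rightVar (Xf := Xf) (Xs := Xs)))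
          (fun k => (locCoord i k : MvPowerSeries (LocVar ι Xs) 𝒪))
        simp only [locCoord_rightVar] at h
        rw [frobTrace, frobTrace, trace_fin_two, trace_fin_two, map_add,
          ← Matrix.map_apply (f := inclPS rightVar), ← Matrix.map_apply (f := inclPS rightVar), h]
      show M.x (inclPS rightVar (frobTrace D i)) = _
      rw [hfr]
      exact M.x_eq (fun _ => frobTrace D i) (fun n => by rw [sub_self]; exact zero_mem _)
        fun n => htr (M.ν n) i
    · obtain ⟨K, hK⟩ := hram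
      obtain ⟨k, hk, hkm⟩ := hK (M.ν K) i
      refine ⟨k, hk, fun h0' => hkm ?_⟩
      have h1 := M.x_conv K (locCoord i k)
      rw [show M.x (locCoord i k) = 0 by
        rw [← locCoord_rightVar]; exact h0', zero_sub, neg_mem_iff] at h1
      exact h1
  have hxp : (RingHom.ker M.x).IsPrime := RingHom.ker_isPrime M.x
  have hCx : RingHom.ker (C.hom (O := 𝒪)) ≤ RingHom.ker M.x := fun g hg => by
    rw [RingHom.mem_ker, hCret] at hg
    rw [RingHom.mem_ker, M.x_ret hxS]
    exact RingHom.mem_ker.mp (hker (hcompC (RingHom.mem_ker.mpr hg)))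
  have hfin : M.gB none ∈ RingHom.ker M.x := by
    refine PMod.mem_of_aug C hCint hCx (fun j => M.gB (some j)) sys.K (fun j => ?_) (fun j => ?_)
      fun a b => ?_
    · exact hquad j
    · rw [RingHom.mem_ker, map_sub, map_add, map_one,
        M.x_eq (fun n => sys.dia (M.ν n) j) (fun n => M.gB_conv n j) (fun n => hdia (M.ν n) j)]
      ring
    · refine eq_zero_of_forall_mem_pow (I := maximalIdeal 𝒪) fun n => ?_
      obtain ⟨m, hm, he⟩ := M.B.exists_hom_map_eq M.le_ν M.B_map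
        (fun n => inclPS rightVar (f (M.ν n))) M.gf_conv n
      have hX : ((1 - M.i₁ * M.l₁ - M.i₂ * M.l₂) * M.B.hom (M.gB none)).map
          (Ideal.Quotient.mk (maximalIdeal (MvPowerSeries (Fin r) 𝒪) ^ n)) =
          ((1 - sys.i₁ (M.ν m) * sys.l₁ (M.ν m) - sys.i₂ (M.ν m) * sys.l₂ (M.ν m)) *
            sys.actB (M.ν m) (inclPS rightVar (f (M.ν m)))).map
              (red (hm.trans (M.le_ν m))) := by
        rw [Matrix.map_mul, he, ← map_mk_red hm (1 - M.i₁ * M.l₁ - M.i₂ * M.l₂), M.coker_map,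
          map_red_red, ← Matrix.map_mul]
      have hzero : ∀ p q, MvPowerSeries.constantCoeff
          (((1 - M.i₁ * M.l₁ - M.i₂ * M.l₂) * M.B.hom (M.gB none) :
            Matrix (Fin sys.rankB) (Fin sys.rankB) (MvPowerSeries (Fin r) 𝒪)) p q) ∈
            maximalIdeal 𝒪 ^ n := by
        intro p q
        have h1 := congrArg (augT r n) (congrFun (congrFun hX p) q)
        have h2' := congrFun (congrFun (hbase (M.ν m)) p) q
        rw [Matrix.map_apply, Matrix.zero_apply] at h2'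
        exact Ideal.Quotient.eq_zero_iff_mem.mp (h1.trans (augT_red (hm.trans (M.le_ν m)) _ h2'))
      rw [hCπ, Matrix.mul_apply, map_sum]
      refine Ideal.sum_mem _ fun q _ => ?_
      rw [map_mul, Matrix.mul_apply, map_sum, Finset.sum_mul]
      refine Ideal.sum_mem _ fun p _ => ?_
      rw [map_mul]
      exact Ideal.mul_mem_right _ _ (Ideal.mul_mem_left _ _ (hzero p q))
  exact (M.x_eq (fun n => inclPS rightVar (f (M.ν n))) M.gf_conv
    fun n => hfx (M.ν n)).symm.trans (RingHom.mem_ker.mp hfin)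

end FLTAgent.RT
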