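import Fermat.Agent.RT.World.Point
import Fermat.Agent.RT.Patch.Restrict
import Fermat.Agent.RT.Patch.LimitApprox

/-!
# Raising the level at `p`: the data

A flat system at level `N` and truncated levels `N`, `N p` acted on through a common power series
ring whose action on the cokernel of the degeneracy maps factors through the variables `Xs` of a
second local condition. A point of the second condition which is Steinberg at every auxiliary
prime kills what dies on that cokernel at the base level.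
-/

set_option autoImplicit false
set_option linter.unusedSectionVars false

noncomputable section

open IsLocalRing Matrix FLTAgent.Deformation

namespace FLTAgent.RT

open Patch

variable {𝒪 : Type} [CommRing 𝒪] [IsDomain 𝒪] [IsDiscreteValuationRing 𝒪]
  [IsAdicComplete (maximalIdeal 𝒪) 𝒪] [Finite (ResidueField 𝒪)] [CharZero 𝒪]
  {ι Xf Xs : Type} [Finite ι] [Finite Xf] [Finite Xs] [DecidableEq ι]
  {D : ι → LocalDatum 𝒪} {r : ℕ}

local instance adicCompleteRaiseP (r : ℕ) :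
    IsAdicComplete (maximalIdeal (MvPowerSeries (Fin r) 𝒪)) (MvPowerSeries (Fin r) 𝒪) :=
  isAdicComplete_powerSeries

local instance finiteResidueRaiseP (r : ℕ) : Finite (ResidueField (MvPowerSeries (Fin r) 𝒪)) :=
  finite_residueField_powerSeries

local instance isDomainRaiseP (r : ℕ) : IsDomain (MvPowerSeries (Fin r) 𝒪) :=
  NoZeroDivisors.to_isDomain _

/-- The coordinates of the first condition among all the variables. -/
def leftVar : LocVar ι Xf → LocVar ι (Xf ⊕ Xs) := Sum.map id Sum.inl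

/-- The coordinates of the second condition among all the variables. -/
def rightVar : LocVar ι Xs → LocVar ι (Xf ⊕ Xs) := Sum.map id Sum.inr

/-- The truncated levels `N` and `N p` above a flat system. -/
structure PlaceRaise (D : ι → LocalDatum 𝒪) (Xf Xs : Type) [Fintype ι] [Finite Xf] [Finite Xs]
    (r : ℕ) (fsys : System D Xf r) (c : 𝒪) (t : MvPowerSeries (LocVar ι Xf) 𝒪) : Type where
  K : ℕ
  rankB : ℕ
  actA : ∀ n, MvPowerSeries (LocVar ι (Xf ⊕ Xs)) 𝒪 →ₐ[𝒪]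
    Matrix (Fin (fsys.rank Finset.univ)) (Fin (fsys.rank Finset.univ)) (STrunc 𝒪 r n)
  actA_left : ∀ n x, actA n (MvPowerSeries.X (leftVar x)) =
    fsys.act n Finset.univ (MvPowerSeries.X x)
  toF : ∀ _n : ℕ, Xs → MvPowerSeries (LocVar ι Xf) 𝒪
  toF_mem : ∀ n j, toF n j ∈ maximalIdeal (MvPowerSeries (LocVar ι Xf) 𝒪)
  toF_eq : ∀ n j, actA n
    (MvPowerSeries.X (Sum.inr (Sum.inr j)) - inclPS leftVar (toF n j)) = 0
  actB : ∀ n, MvPowerSeries (LocVar ι (Xf ⊕ Xs)) 𝒪 →ₐ[𝒪]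
    Matrix (Fin rankB) (Fin rankB) (STrunc 𝒪 r n)
  relB : ∀ n i, (D i).Rel 2 fun k =>
    Ideal.Quotient.mk (RingHom.ker (actB n)) (locCoord i k)
  normB : ∀ n i, (D i).IsNorm fun k =>
    Ideal.Quotient.mk (RingHom.ker (actB n)) (locCoord i k)
  i₁ : ∀ n, Matrix (Fin rankB) (Fin (fsys.rank Finset.univ)) (STrunc 𝒪 r n)
  i₂ : ∀ n, Matrix (Fin rankB) (Fin (fsys.rank Finset.univ)) (STrunc 𝒪 r n)
  s₁ : ∀ n, Matrix (Fin rankB) (Fin (fsys.rank Finset.univ)) (STrunc 𝒪 r n)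
  l₁ : ∀ n, Matrix (Fin (fsys.rank Finset.univ)) (Fin rankB) (STrunc 𝒪 r n)
  l₂ : ∀ n, Matrix (Fin (fsys.rank Finset.univ)) (Fin rankB) (STrunc 𝒪 r n)
  j₁ : ∀ n, Matrix (Fin (fsys.rank Finset.univ)) (Fin rankB) (STrunc 𝒪 r n)
  j₂ : ∀ n, Matrix (Fin (fsys.rank Finset.univ)) (Fin rankB) (STrunc 𝒪 r n)
  T : ∀ n, Matrix (Fin (fsys.rank Finset.univ)) (Fin (fsys.rank Finset.univ)) (STrunc 𝒪 r n)
  l₁i₁ : ∀ n, l₁ n * i₁ n = 1
  l₁i₂ : ∀ n, l₁ n * i₂ n = 0
  l₂i₁ : ∀ n, l₂ n * i₁ n = 0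
  l₂i₂ : ∀ n, l₂ n * i₂ n = 1
  i₁_act : ∀ n x, actB n (MvPowerSeries.X x) * i₁ n = i₁ n * actA n (MvPowerSeries.X x)
  i₂_act : ∀ n x, actB n (MvPowerSeries.X x) * i₂ n = i₂ n * actA n (MvPowerSeries.X x)
  j₁_act : ∀ n x, j₁ n * actB n (MvPowerSeries.X x) = actA n (MvPowerSeries.X x) * j₁ n
  j₂_act : ∀ n x, j₂ n * actB n (MvPowerSeries.X x) = actA n (MvPowerSeries.X x) * j₂ n
  j₁s₁ : ∀ n, j₁ n * s₁ n = 1
  j₂s₁ : ∀ n, j₂ n * s₁ n = 0
  j₁i₁ : ∀ n, j₁ n * i₁ n = algebraMap 𝒪 _ c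
  j₁i₂ : ∀ n, j₁ n * i₂ n = T n
  j₂i₁ : ∀ n, j₂ n * i₁ n = T n
  j₂i₂ : ∀ n, j₂ n * i₂ n = algebraMap 𝒪 _ c
  T_comm : ∀ n x, actA n (MvPowerSeries.X x) * T n = T n * actA n (MvPowerSeries.X x)
  T_nil : ∀ n, (T n - actA n (inclPS leftVar t)) ^ K = 0
  toS : ∀ _n : ℕ, Xf → MvPowerSeries (LocVar ι Xs) 𝒪
  toS_mem : ∀ n j, toS n j ∈ maximalIdeal (MvPowerSeries (LocVar ι Xs) 𝒪)
  toS_eq : ∀ n j, (1 - i₁ n * l₁ n - i₂ n * l₂ n) * actB n
    (MvPowerSeries.X (Sum.inr (Sum.inl j)) - inclPS rightVar (toS n j)) = 0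
  dia : ∀ _n : ℕ, Fin r → MvPowerSeries (LocVar ι (Xf ⊕ Xs)) 𝒪
  dia_rel : ∀ n j, (1 - i₁ n * l₁ n - i₂ n * l₂ n) *
    ((algebraMap (MvPowerSeries (Fin r) 𝒪) (Matrix (Fin rankB) (Fin rankB) (STrunc 𝒪 r n))
          (1 + MvPowerSeries.X j)) ^ 2 -
        (actB n (dia n j) ^ 2 - 2) *
          algebraMap (MvPowerSeries (Fin r) 𝒪) (Matrix (Fin rankB) (Fin rankB) (STrunc 𝒪 r n))
            (1 + MvPowerSeries.X j) + 1) ^ K = 0

theorem locCoord_leftVar (i : ι) (k : Fin 8) :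
    inclPS (O := 𝒪) (leftVar (Xf := Xf) (Xs := Xs)) (locCoord i k) = locCoord i k :=
  inclPS_X _ _

theorem locCoord_rightVar (i : ι) (k : Fin 8) :
    inclPS (O := 𝒪) (rightVar (Xf := Xf) (Xs := Xs)) (locCoord i k) = locCoord i k :=
  inclPS_X _ _

/-- A map fixing the coordinates at the auxiliary primes fixes the sign elements. -/
theorem map_signElt {Y Z : Type} (F : MvPowerSeries (LocVar ι Y) 𝒪 →ₐ[𝒪] MvPowerSeries (LocVar ι Z) 𝒪)
    (hF : ∀ i k, F (locCoord i k) = locCoord i k) (i : ι) (ε : 𝒪) :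
    F (signElt D i ε) = signElt D i ε := by
  have h := (D i).phiMat_map F (fun k => (locCoord i k : MvPowerSeries (LocVar ι Y) 𝒪))
  simp only [hF] at h
  have h00 := congrFun (congrFun h 0) 0
  have h01 := congrFun (congrFun h 0) 1
  rw [Matrix.map_apply] at h00 h01
  simp only [signElt, map_sub, map_mul, AlgHom.commutes, map_natCast, hF, h00, h01]

/-- The sign element of its own sign lies in the component. -/
theorem signElt_mem_compKer {X : Type} [Finite X] (c : ι → CompType 𝒪)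
    (hc : ∀ i, (c i).OK (D i)) {i : ι} {ε : 𝒪} (hci : c i = CompType.st ε) :
    signElt (X := X) D i ε ∈ compKer D c hc := by
  refine (mem_compKer_iff_chart D c hc (toModel_signElt D c hc hci)).mpr ?_
  rw [sub_self, zero_mul, map_zero, zero_mul]

theorem signOK_mul_self {i : ι} {ε : 𝒪} (h : (CompType.st ε).OK (D i)) : ε * ε = 1 := h.1

/-- Intertwining passes to powers. -/
theorem intertwine_pow {S : Type*} [CommRing S] {e b : ℕ} (π : Matrix (Fin e) (Fin b) S)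
    {x : Matrix (Fin b) (Fin b) S} {x' : Matrix (Fin e) (Fin e) S} (h : π * x = x' * π) (m : ℕ) :
    π * x ^ m = x' ^ m * π := by
  induction m with
  | zero => rw [pow_zero, pow_zero, Matrix.mul_one, Matrix.one_mul]
  | succ m ih =>
    rw [pow_succ, pow_succ, ← Matrix.mul_assoc, ih, Matrix.mul_assoc, h, Matrix.mul_assoc]

/-- An intertwined quadratic relation passes to the target of a split surjection. -/
theorem quad_pow_eq_zero_of_intertwine {S : Type*} [CommRing S] {e b : ℕ}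
    (π : Matrix (Fin e) (Fin b) S) (σ : Matrix (Fin b) (Fin e) S) (hπσ : π * σ = 1)
    {y g : Matrix (Fin b) (Fin b) S} {y' g' : Matrix (Fin e) (Fin e) S}
    (hy : π * y = y' * π) (hg : π * g = g' * π) (K : ℕ)
    (h : π * (y ^ 2 - (g ^ 2 - (1 + 1)) * y + 1) ^ K = 0) :
    (y' ^ 2 - (g' ^ 2 - (1 + 1)) * y' + 1) ^ K = 0 := by
  have hq : π * (y ^ 2 - (g ^ 2 - (1 + 1)) * y + 1) =
      (y' ^ 2 - (g' ^ 2 - (1 + 1)) * y' + 1) * π := by
    simp only [Matrix.mul_add, Matrix.mul_sub, Matrix.add_mul, Matrix.sub_mul, Matrix.mul_one,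
      Matrix.one_mul, ← Matrix.mul_assoc, intertwine_pow π hy, intertwine_pow π hg, hy]
    simp only [Matrix.mul_assoc, hy]
  have key := intertwine_pow π hq K
  rw [h] at key
  set q := y' ^ 2 - (g' ^ 2 - (1 + 1)) * y' + 1
  rw [← Matrix.mul_one (q ^ K), ← hπσ, ← Matrix.mul_assoc, ← key, Matrix.zero_mul]

/-- A diamond relation on a level passes to a cokernel. -/
theorem dia_rel_coker {τ : Type} [Finite τ] {b e : ℕ} (B : PMod (MvPowerSeries (Fin r) 𝒪) τ b)
    (C : PMod (MvPowerSeries (Fin r) 𝒪) τ e) (π : Matrix (Fin e) (Fin b) (MvPowerSeries (Fin r) 𝒪))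
    (σ : Matrix (Fin b) (Fin e) (MvPowerSeries (Fin r) 𝒪)) (hπσ : π * σ = 1)
    (hπ : ∀ u, π * B.act u = C.act u * π) (g : MvPowerSeries τ 𝒪) (j : Fin r) (K : ℕ)
    (h : π * ((1 + algebraMap (MvPowerSeries (Fin r) 𝒪)
          (Matrix (Fin b) (Fin b) (MvPowerSeries (Fin r) 𝒪)) (MvPowerSeries.X j)) ^ 2 -
      (B.hom g ^ 2 - (1 + 1)) * (1 + algebraMap (MvPowerSeries (Fin r) 𝒪)
          (Matrix (Fin b) (Fin b) (MvPowerSeries (Fin r) 𝒪)) (MvPowerSeries.X j)) + 1) ^ K = 0) :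
    ((1 + algebraMap (MvPowerSeries (Fin r) 𝒪) C.alg (MvPowerSeries.X j)) ^ 2 -
      (C.toAlg g ^ 2 - (1 + 1)) *
        (1 + algebraMap (MvPowerSeries (Fin r) 𝒪) C.alg (MvPowerSeries.X j)) + 1) ^ K = 0 := by
  refine Subtype.ext ?_
  simp only [SubmonoidClass.coe_pow, AddSubgroupClass.coe_sub, Subalgebra.coe_add,
    Subalgebra.coe_mul, Subalgebra.coe_one, Subalgebra.coe_algebraMap, C.coe_toAlg,
    ZeroMemClass.coe_zero]
  set yC := 1 + algebraMap (MvPowerSeries (Fin r) 𝒪)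
    (Matrix (Fin e) (Fin e) (MvPowerSeries (Fin r) 𝒪)) (MvPowerSeries.X j)
  set yB := 1 + algebraMap (MvPowerSeries (Fin r) 𝒪)
    (Matrix (Fin b) (Fin b) (MvPowerSeries (Fin r) 𝒪)) (MvPowerSeries.X j)
  have hy : π * yB = yC * π := by
    simp only [yB, yC, Algebra.algebraMap_eq_smul_one, Matrix.mul_add, Matrix.add_mul,
      Matrix.mul_smul, Matrix.smul_mul, Matrix.mul_one, Matrix.one_mul]
  exact quad_pow_eq_zero_of_intertwine π σ hπσ hy (B.mul_hom C π hπ g) K h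

/-- Quadratic relations between the parameters and elements of the image make a module integral. -/
theorem integral_of_quad {τ : Type} [Finite τ] {e : ℕ}
    (C : PMod (MvPowerSeries (Fin r) 𝒪) τ e) (g : Fin r → MvPowerSeries τ 𝒪) (K : ℕ)
    (h : ∀ j, ((1 + algebraMap (MvPowerSeries (Fin r) 𝒪) C.alg (MvPowerSeries.X j)) ^ 2 -
      (C.toAlg (g j) ^ 2 - (1 + 1)) *
        (1 + algebraMap (MvPowerSeries (Fin r) 𝒪) C.alg (MvPowerSeries.X j)) + 1) ^ K = 0) :
    C.Integral 𝒪 := by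
  classical
  refine C.integral_of_generators (fun j => MvPowerSeries.X j) (fun f n => ?_) fun j => ?_
  · obtain ⟨q, hq⟩ := exists_polynomial_sub_mem f n
    refine ⟨_, ?_, hq⟩
    clear hq
    induction q using MvPolynomial.induction_on with
    | C a =>
      rw [MvPolynomial.coe_C, show (MvPowerSeries.C a : MvPowerSeries (Fin r) 𝒪) =
        algebraMap 𝒪 _ a by rw [MvPowerSeries.algebraMap_apply]; rfl]
      exact Subalgebra.algebraMap_mem _ a
    | add a b ha hb => rw [MvPolynomial.coe_add]; exact add_mem ha hb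
    | mul_X a i ha =>
      rw [MvPolynomial.coe_mul, MvPolynomial.coe_X]
      exact mul_mem ha (Algebra.subset_adjoin ⟨i, rfl⟩)
  · refine ⟨((Polynomial.X + 1) ^ 2 -
      (Polynomial.C (g j) ^ 2 - 2) * (Polynomial.X + 1) + 1) ^ K, Polynomial.Monic.pow ?_ _, ?_⟩
    · have : ((Polynomial.X + 1) ^ 2 - (Polynomial.C (g j) ^ 2 - 2) * (Polynomial.X + 1) + 1 :
          Polynomial (MvPowerSeries τ 𝒪)) = Polynomial.X ^ 2 +
          (Polynomial.C (4 - g j ^ 2) * Polynomial.X + Polynomial.C (4 - g j ^ 2)) := by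
        rw [map_sub, map_pow, show (Polynomial.C (4 : MvPowerSeries τ 𝒪)) = 4 from
          Polynomial.C_ofNat 4]
        ring
      rw [this]
      refine Polynomial.monic_X_pow_add (lt_of_le_of_lt Polynomial.degree_linear_le ?_)
      exact_mod_cast Nat.lt_succ_self 1
    · refine Eq.trans ?_ (h j)
      simp only [Polynomial.eval₂_pow, Polynomial.eval₂_add, Polynomial.eval₂_sub,
        Polynomial.eval₂_mul, Polynomial.eval₂_X, Polynomial.eval₂_one, Polynomial.eval₂_C,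
        Polynomial.eval₂_ofNat, one_add_one_eq_two, add_comm]

end FLTAgent.RT
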