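import Fermat.Agent.RT.LocalCutQ
import Fermat.Agent.RT.Patch.Valuation
import Fermat.Agent.RT.World.Point

/-!
# Lowering the level at a scalar prime

A patched family with inertia eigenvalues `λ, λ⁻¹`, `λ` in a finite set, at the prime `i₀`, in which
a power of the raising element at `i₀` is divisible by `w`, each `λ - 1` dividing `w`, does not
exist. (For `w = ζ - 1` the divisibility holds as soon as every form congruent to it modulo `ζ - 1`
is new at that prime.)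
-/

set_option autoImplicit false
set_option linter.unusedSectionVars false

noncomputable section

open IsLocalRing Matrix FLTAgent.Deformation

namespace FLTAgent.RT

open Patch

/-- A power of a perturbation of a nilpotent element is divisible by the perturbation factor. -/
theorem exists_pow_eq_smul_of_congr {A : Type*} [CommRing A] {M : Type*} [Ring M] [Algebra A M]
    {w : A} {a b W : M} {K : ℕ} (hb : b = a + w • W) (ha : a ^ K = 0) :
    ∃ Z : M, b ^ K = w • Z := by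
  suffices h : ∀ n, ∃ Z, b ^ n = a ^ n + w • Z by
    obtain ⟨Z, hZ⟩ := h K
    exact ⟨Z, by rw [hZ, ha, zero_add]⟩
  intro n
  induction n with
  | zero => exact ⟨0, by simp⟩
  | succ n ih =>
    obtain ⟨Z, hZ⟩ := ih
    refine ⟨Z * b + a ^ n * W, ?_⟩
    calc b ^ (n + 1) = a ^ n * b + (w • Z) * b := by rw [pow_succ, hZ, add_mul]
      _ = a ^ n * a + a ^ n * (w • W) + (w • Z) * b := by rw [← mul_add, ← hb]
      _ = _ := by
        rw [← pow_succ, mul_smul_comm, smul_mul_assoc, smul_add]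
        abel

/-- The relations at a prime with the trace of inertia among the sums of the pairs in `Λ`, as
membership in an ideal. -/
structure LocalDatum.RelProd {𝒪 : Type} [CommRing 𝒪] (D : LocalDatum 𝒪) (Λ : Finset (𝒪 × 𝒪))
    {R : Type} [CommRing R] [Algebra 𝒪 R] (v : Fin 8 → R) (J : Ideal R) : Prop where
  det_phi : (D.phiMat v).det - (D.q : R) ∈ J
  comm : ∀ a b, (D.phiMat v * sMat v - sMat v ^ D.q * D.phiMat v) a b ∈ J
  det_s : (sMat v).det - 1 ∈ J
  prod : ∏ x ∈ Λ, ((sMat v).trace - algebraMap 𝒪 R (x.1 + x.2)) ∈ J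

/-- Relations modulo a prime containing those of a product are relations for one of the pairs. -/
theorem LocalDatum.exists_rel_of_relProd {𝒪 : Type} [CommRing 𝒪] {D : LocalDatum 𝒪}
    {Λ : Finset (𝒪 × 𝒪)} {R : Type} [CommRing R] [Algebra 𝒪 R] {v : Fin 8 → R} {κ : Type}
    {J : κ → Ideal R} {Q : Ideal R} [Q.IsPrime] (hJ : ∀ f, (∀ n, f ∈ J n) → f ∈ Q)
    (h : ∀ n, D.RelProd Λ v (J n)) :
    ∃ x ∈ Λ, D.Rel (x.1 + x.2) fun k => Ideal.Quotient.mk Q (v k) := by
  obtain ⟨x, hx, hxQ⟩ := (Ideal.IsPrime.prod_mem_iff).mp (hJ _ fun n => (h n).prod)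
  refine ⟨x, hx, ?_⟩
  let g : R →ₐ[𝒪] R ⧸ Q := Ideal.Quotient.mkₐ 𝒪 Q
  have hz : ∀ {f : R}, f ∈ Q → g f = 0 := fun hf => Ideal.Quotient.eq_zero_iff_mem.mpr hf
  have hphi := D.phiMat_map g v
  have hs := sMat_map g v
  constructor
  · show (D.phiMat fun k => g (v k)).det = _
    rw [← hphi, ← AlgHom.mapMatrix_apply, ← AlgHom.map_det, ← sub_eq_zero, ← map_natCast g,
      ← map_sub]
    exact hz (hJ _ fun n => (h n).det_phi)
  · show (D.phiMat fun k => g (v k)) * sMat (fun k => g (v k)) =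
      sMat (fun k => g (v k)) ^ D.q * D.phiMat fun k => g (v k)
    rw [← hphi, ← hs, ← sub_eq_zero, ← AlgHom.mapMatrix_apply, ← AlgHom.mapMatrix_apply, ← map_pow,
      ← map_mul, ← map_mul, ← map_sub]
    exact Matrix.ext fun a b => hz (hJ _ fun n => (h n).comm a b)
  · show (sMat fun k => g (v k)).trace = _
    rw [← hs, trace_fin_two, Matrix.map_apply, Matrix.map_apply, ← map_add, ← trace_fin_two,
      ← AlgHom.commutes g, ← sub_eq_zero, ← map_sub]
    exact hz hxQ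
  · show (sMat fun k => g (v k)).det = 1
    rw [← hs, ← AlgHom.mapMatrix_apply, ← AlgHom.map_det, ← sub_eq_zero, ← map_one g, ← map_sub]
    exact hz (hJ _ fun n => (h n).det_s)

variable {𝒪 : Type} [CommRing 𝒪] [IsDomain 𝒪] [IsDiscreteValuationRing 𝒪]
  [IsAdicComplete (maximalIdeal 𝒪) 𝒪] [Finite (ResidueField 𝒪)] [CharZero 𝒪]
  {ι X : Type} [Finite ι] [Finite X] [DecidableEq ι]

local instance adicCompleteLowering (r : ℕ) :
    IsAdicComplete (maximalIdeal (MvPowerSeries (Fin r) 𝒪)) (MvPowerSeries (Fin r) 𝒪) :=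
  isAdicComplete_powerSeries

local instance finiteResidueLowering (r : ℕ) :
    Finite (ResidueField (MvPowerSeries (Fin r) 𝒪)) :=
  finite_residueField_powerSeries

local instance isDomainLowering (r : ℕ) : IsDomain (MvPowerSeries (Fin r) 𝒪) :=
  NoZeroDivisors.to_isDomain _

/-- The finite levels of the family used for lowering at `i₀`, with the possible pairs of
eigenvalues of inertia at `i₀` in `Λ`. -/
structure LowerSystem (D : ι → LocalDatum 𝒪) (X : Type) [Finite X] (r : ℕ) (i₀ : ι)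
    (w : 𝒪) (Λ : Finset (𝒪 × 𝒪)) : Type where
  K : ℕ
  rank : ℕ
  rank_pos : 0 < rank
  act : ∀ n, MvPowerSeries (LocVar ι X) 𝒪 →ₐ[𝒪]
    Matrix (Fin rank) (Fin rank) (STrunc 𝒪 r n)
  /-- the local relations hold up to elements whose `K`th power acts as zero -/
  rel : ∀ n i, i ≠ i₀ → ∃ J : Ideal (MvPowerSeries (LocVar ι X) 𝒪),
    (∀ f ∈ J, act n (f ^ K) = 0) ∧
      (D i).Rel 2 fun k => Ideal.Quotient.mk J (locCoord i k)
  /-- at `i₀` the trace of inertia is a root of the product over `Λ` -/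
  rel₀ : ∀ n, ∃ J : Ideal (MvPowerSeries (LocVar ι X) 𝒪), (∀ f ∈ J, act n (f ^ K) = 0) ∧
    (D i₀).RelProd Λ (fun k => locCoord i₀ k) J
  norm : ∀ n i, (D i).IsNorm fun k =>
    Ideal.Quotient.mk (RingHom.ker (act n)) (locCoord i k)
  cong : ∀ n, ∃ Z : Matrix (Fin rank) (Fin rank) (STrunc 𝒪 r n),
    act n (raisingElt D i₀ ^ K) = w • Z
  /-- preimages of the traces at the auxiliary primes -/
  dia : ∀ _n : ℕ, Fin r → MvPowerSeries (LocVar ι X) 𝒪
  dia_rel : ∀ n j,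
    ((algebraMap (MvPowerSeries (Fin r) 𝒪) (Matrix (Fin rank) (Fin rank) (STrunc 𝒪 r n))
          (1 + MvPowerSeries.X j)) ^ 2 -
        (act n (dia n j) ^ 2 - 2) *
          algebraMap (MvPowerSeries (Fin r) 𝒪) (Matrix (Fin rank) (Fin rank) (STrunc 𝒪 r n))
            (1 + MvPowerSeries.X j) + 1) ^ K = 0

/-- **Lowering**: such a family does not exist. -/
theorem LowerSystem.false {D : ι → LocalDatum 𝒪} {r : ℕ} {i₀ : ι} {w : 𝒪} {Λ : Finset (𝒪 × 𝒪)}
    (sys : LowerSystem D X r i₀ w Λ) (h2 : IsUnit (2 : 𝒪))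
    (hr : Nat.card ((Σ i, Fin (D i).h0) ⊕ X) ≤ r) {φ : 𝒪}
    (hb : (D i₀).base = LocalBase.scalar φ) {m : ℕ} (hm : 0 < m)
    (h4 : (4 : 𝒪) ^ (2 * m) - 1 ∈ maximalIdeal 𝒪)
    (hΛ : ∀ x ∈ Λ, x.1 * x.2 = 1 ∧ x.1 ≠ 1 ∧ x.1 - 1 ∈ maximalIdeal 𝒪 ∧ x.1 ^ (D i₀).q = x.1 ∧
      x.1 - 1 ∣ w)
    (hdvd : w ∣ ((D i₀).q : 𝒪) - 1) : False := by
  classical
  let S := MvPowerSeries (Fin r) 𝒪
  let R := MvPowerSeries (LocVar ι X) 𝒪
  choose Z hZ using sys.cong
  let E : ∀ (n : ℕ) (_ : Option (Fin r)),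
      Matrix (Fin sys.rank) (Fin sys.rank) (S ⧸ maximalIdeal S ^ n) := fun n k =>
    k.elim (Z n) fun j => sys.act n (sys.dia n j)
  obtain ⟨s, hs, L', F, hL', hF⟩ := exists_limit (ι := Unit) (τ := fun _ => LocVar ι X)
    (fun n _ => sys.act n) E
  set L := L' () with hLdef
  have hL : ∀ n f, L.homMod n f = (sys.act (s n) f).map (red (hs.id_le n)) := fun n f => hL' n () f
  have hmem : ∀ f, (∀ n, f ∈ RingHom.ker (sys.act (s n))) → f ∈ RingHom.ker (L.hom (O := 𝒪)) :=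
    fun f hf => by
      refine RingHom.mem_ker.mpr (matrix_eq_of_forall_map_eq fun n => ?_)
      rw [← PMod.homMod_apply, hL, RingHom.mem_ker.mp (hf n), Matrix.map_zero _ (map_zero _),
        Matrix.map_zero _ (map_zero _)]
  have hint : L.Integral 𝒪 := integral_of_dia L hs (φ := sys.act) hL (fun j => F (some j))
    (fun n j => sys.dia n j) (fun n j => hF n (some j)) sys.K sys.dia_rel
  have hW : L.hom (raisingElt D i₀ ^ sys.K) = L.hom (algebraMap 𝒪 R w) * F none := by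
    rw [AlgHom.commutes]
    refine matrix_eq_of_forall_map_eq fun n => ?_
    rw [← PMod.homMod_apply, hL, hZ]
    have e : (F none).map (Ideal.Quotient.mk (maximalIdeal S ^ n)) =
      (Z (s n)).map (red (hs.id_le n)) := hF n none
    rw [← Algebra.smul_def]
    ext a b
    have e' := congrFun (congrFun e a) b
    rw [Matrix.map_apply, Matrix.map_apply] at e'
    rw [Matrix.map_apply, Matrix.map_apply, Matrix.smul_apply, Matrix.smul_apply,
      Algebra.smul_def, Algebra.smul_def, map_mul, map_mul, e']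
    rfl
  -- a minimal prime and a point on it
  have : NeZero sys.rank := ⟨sys.rank_pos.ne'⟩
  obtain ⟨P₁, hP₁, hle⟩ := Ideal.exists_le_maximal _ (RingHom.ker_ne_top (L.hom (O := 𝒪)))
  have := hP₁.isPrime
  obtain ⟨Q, hQ, -⟩ := Ideal.exists_minimalPrimes_le hle
  have hQp : Q.IsPrime := hQ.1.1
  have hJQ : ∀ J : ℕ → Ideal R, (∀ n, ∀ f ∈ J n, sys.act n (f ^ sys.K) = 0) →
      ∀ f, (∀ n, f ∈ J (s n)) → f ∈ Q := fun J hJ f hf => hQp.mem_of_pow_mem sys.K
    (hQ.1.2 (hmem _ fun n => RingHom.mem_ker.mpr (hJ (s n) f (hf n))))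
  choose J₀ hJ₀ hJrel₀ using sys.rel₀
  obtain ⟨⟨ζ, ζ'⟩, hmemΛ, hrel₀⟩ := LocalDatum.exists_rel_of_relProd (J := fun n => J₀ (s n))
    (Q := Q) (hJQ J₀ hJ₀) fun n => hJrel₀ (s n)
  obtain ⟨hζζ, hζ1, hζ, hζq, hζw⟩ := hΛ _ hmemΛ
  set t : ι → 𝒪 := Function.update (fun _ => (2 : 𝒪)) i₀ (ζ + ζ') with ht_def
  have ht : ∀ i, t i - 2 ∈ maximalIdeal 𝒪 := fun i => by
    rcases eq_or_ne i i₀ with rfl | hi
    · rw [ht_def, Function.update_self, show ζ + ζ' - 2 = (ζ - 1) * (1 - ζ') by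
        linear_combination hζζ]
      exact Ideal.mul_mem_right _ _ hζ
    · rw [ht_def, Function.update_of_ne hi, sub_self]
      exact zero_mem _
  choose J hJ hJrel using sys.rel
  have hrelQ : ∀ i, (D i).Rel (t i) fun k => Ideal.Quotient.mk Q (locCoord i k) := fun i => by
    rcases eq_or_ne i i₀ with rfl | hi
    · rw [ht_def, Function.update_self]
      exact hrel₀
    · rw [ht_def, Function.update_of_ne hi]
      exact LocalDatum.Rel.of_forall_quotient (hJQ (fun n => J n i hi) fun n => hJ n i hi)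
        fun n => hJrel (s n) i hi
  have hnormQ : ∀ i, (D i).IsNorm fun k => Ideal.Quotient.mk Q (locCoord i k) := fun i T hT =>
    ⟨Ideal.Quotient.eq_zero_iff_mem.mpr (hQ.1.2 (hmem _ fun n =>
        Ideal.Quotient.eq_zero_iff_mem.mp (sys.norm (s n) i T hT).1)),
      Ideal.Quotient.eq_zero_iff_mem.mpr (hQ.1.2 (hmem _ fun n =>
        Ideal.Quotient.eq_zero_iff_mem.mp (sys.norm (s n) i T hT).2))⟩
  have hdvd' : ζ - 1 ∣ ((D i₀).q : 𝒪) - 1 := hζw.trans hdvd
  have hq : ((D i₀).q : 𝒪) - 1 ∈ maximalIdeal 𝒪 := by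
    obtain ⟨c, hc⟩ := hdvd'
    rw [hc]
    exact Ideal.mul_mem_right _ _ hζ
  have h4' : (4 : 𝒪) ^ (2 * (m * sys.K)) - 1 ∈ maximalIdeal 𝒪 := by
    obtain ⟨c, hc⟩ : (4 : 𝒪) ^ (2 * m) - 1 ∣ ((4 : 𝒪) ^ (2 * m)) ^ sys.K - 1 := by
      simpa using sub_dvd_pow_sub_pow ((4 : 𝒪) ^ (2 * m)) 1 sys.K
    rw [← mul_assoc, pow_mul, hc]
    exact Ideal.mul_mem_right _ _ h4
  obtain ⟨P, hPp, hQP, hchar, hcut⟩ := exists_scalar_lowering_point h2 D t ht i₀ hb hq h4' Q
    hrelQ hnormQ (by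
      rw [(hint.minimalPrime hQ).1]
      refine lt_of_lt_of_le ?_ (succ_le_ringKrullDim_powerSeries 𝒪 r)
      exact_mod_cast (by omega : Nat.card ((Σ i, Fin (D i).h0) ⊕ X) < r + 1))
  obtain ⟨V, _, _, _, f, hfloc, hfker, hdiv⟩ := hint.exists_dvd_of_eq_mul (hQ.1.2.trans hQP) hW
  letI : Algebra 𝒪 V := (f.comp (algebraMap 𝒪 R)).toAlgebra
  have : IsLocalHom (algebraMap 𝒪 V) := ⟨fun a ha => by
    have h := MvPowerSeries.isUnit_iff_constantCoeff.mp (hfloc.map_nonunit _ ha)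
    rwa [constantCoeff_algebraMap] at h⟩
  let g : (R ⧸ P) →ₐ[𝒪] V :=
    { Ideal.Quotient.lift P f (fun x hx => by rwa [← hfker] at hx) with
      commutes' := fun a => rfl }
  have hrelV : (D i₀).Rel (ζ + ζ') fun k => f (locCoord i₀ k) := by
    have h := ((hrelQ i₀).map (Ideal.Quotient.factorₐ 𝒪 hQP)).map g
    rw [ht_def, Function.update_self] at h
    exact h
  obtain ⟨Z₁, hZ₁⟩ := hdiv
  obtain ⟨c₁, hc₁⟩ := hζw
  obtain ⟨Z', hZ'⟩ : ∃ Z', f (raisingElt D i₀ ^ sys.K) = f (algebraMap 𝒪 R (ζ - 1)) * Z' :=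
    ⟨f (algebraMap 𝒪 R c₁) * Z₁, by rw [hZ₁, hc₁, map_mul, map_mul, mul_assoc]⟩
  refine (D i₀).scalar_obstruction hb h2 (k := m * sys.K) (K := sys.K)
    (Nat.le_mul_of_pos_left _ hm) h4' hζζ hζ hζq (V := V) ?_ (v := fun k => f (locCoord i₀ k))
    (fun k => ?_) hrelV (fun j => ?_) (c₀ := (((D i₀).q : 𝒪) - 1) ^ 2)
    (dvd_pow hdvd' two_ne_zero) (Z := Z') ?_
  · intro h0
    refine hchar _ (sub_ne_zero.mpr hζ1) ?_
    rw [← hfker]
    exact h0
  · rw [IsLocalRing.mem_maximalIdeal, mem_nonunits_iff]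
    intro hu
    exact (IsLocalRing.mem_maximalIdeal _).mp
      (span_X_le_maximalIdeal (Ideal.subset_span ⟨_, rfl⟩) :
        (locCoord i₀ k : R) ∈ maximalIdeal R) (hfloc.map_nonunit _ hu)
  · rw [← cutQ_map, ← RingHom.mem_ker, hfker]
    exact hcut j
  · have hmap : ((D i₀).disc fun k => f (locCoord i₀ k)) =
        f ((D i₀).disc fun k => (locCoord i₀ k : R)) := by
      let fA : R →ₐ[𝒪] V := { f with commutes' := fun a => rfl }
      have h1 := (D i₀).phiMat_map fA (fun k => (locCoord i₀ k : R))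
      show ((D i₀).disc fun k => fA (locCoord i₀ k)) =
        fA ((D i₀).disc fun k => (locCoord i₀ k : R))
      simp [LocalDatum.disc, trace_fin_two, ← h1, map_ofNat]
    have hre : ((D i₀).disc fun k => (locCoord i₀ k : R)) -
        algebraMap 𝒪 R ((((D i₀).q : 𝒪) - 1) ^ 2) = raisingElt D i₀ := by
      rw [raisingElt, frobTrace, LocalDatum.disc]
      simp only [map_pow, map_sub, map_natCast, map_one]
      ring
    rw [hmap, show algebraMap 𝒪 V ((((D i₀).q : 𝒪) - 1) ^ 2) =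
      f (algebraMap 𝒪 R ((((D i₀).q : 𝒪) - 1) ^ 2)) from rfl, ← map_sub, hre, ← map_pow]
    exact hZ'

end FLTAgent.RT
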