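import Fermat.Agent.RT.LocalDim
import Mathlib.RingTheory.MvPowerSeries.Equiv
import Mathlib.RingTheory.KrullDimension.NonZeroDivisors
import Mathlib.RingTheory.KrullDimension.PID
import Mathlib.RingTheory.DiscreteValuationRing.TFAE

/-!
# The dimension of the ring of diamond parameters
-/

set_option autoImplicit false

noncomputable section

open IsLocalRing FLTAgent.Deformation

namespace FLTAgent.RT

variable (𝒪 : Type) [CommRing 𝒪] [IsDomain 𝒪] [IsDiscreteValuationRing 𝒪]

theorem succ_le_ringKrullDim_powerSeries (r : ℕ) :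
    ((r + 1 : ℕ) : WithBot ℕ∞) ≤ ringKrullDim (MvPowerSeries (Fin r) 𝒪) := by
  induction r with
  | zero =>
    have h1 : ringKrullDim 𝒪 = 1 :=
      IsPrincipalIdealRing.ringKrullDim_eq_one 𝒪 (IsDiscreteValuationRing.not_isField 𝒪)
    refine le_trans ?_ (ringKrullDim_le_of_surjective
      (MvPowerSeries.constantCoeff (σ := Fin 0) (R := 𝒪))
      fun a => ⟨MvPowerSeries.C a, MvPowerSeries.constantCoeff_C a⟩)
    rw [h1]
    simp
  | succ r ih =>
    rw [ringKrullDim_eq_of_ringEquiv (MvPowerSeries.finSuccEquiv 𝒪 r).toRingEquiv]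
    refine le_trans ?_ ringKrullDim_succ_le_ringKrullDim_powerseries
    rw [show ((r + 1 + 1 : ℕ) : WithBot ℕ∞) = ((r + 1 : ℕ) : WithBot ℕ∞) + 1 by push_cast; rfl]
    gcongr

theorem ringKrullDim_powerSeries_lt_top (r : ℕ) :
    ringKrullDim (MvPowerSeries (Fin r) 𝒪) < ⊤ := by
  obtain ⟨ϖ, hϖ⟩ := IsDiscreteValuationRing.exists_irreducible 𝒪
  refine lt_of_le_of_lt (ringKrullDim_le_card (κ := Unit ⊕ Fin r)
    (Sum.elim (fun _ => algebraMap 𝒪 _ ϖ) MvPowerSeries.X) (fun P hP hz => ?_) ?_) ?_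
  · refine le_antisymm (IsLocalRing.le_maximalIdeal hP.ne_top) fun f hf => ?_
    have h1 := sub_truncTotal_mem_span_X_pow f 1
    rw [pow_one] at h1
    have hspan : Ideal.span (Set.range (MvPowerSeries.X (σ := Fin r) (R := 𝒪))) ≤ P := by
      rw [Ideal.span_le]
      rintro _ ⟨j, rfl⟩
      exact hz (Sum.inr j)
    have hC : ((MvPowerSeries.truncTotal 1 f : MvPolynomial (Fin r) 𝒪) :
        MvPowerSeries (Fin r) 𝒪) = algebraMap 𝒪 _ (MvPowerSeries.constantCoeff f) := by
      ext d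
      rw [MvPolynomial.coeff_coe, MvPowerSeries.algebraMap_apply, MvPowerSeries.coeff_C,
        MvPowerSeries.coeff_truncTotal_eq_ite]
      by_cases hd : d = 0
      · subst hd; simp
      · have : d.degree ≠ 0 := fun h => hd ((Finsupp.degree_eq_zero_iff _).mp h)
        simp [hd, this]
    rw [hC] at h1
    rw [← sub_add_cancel f (algebraMap 𝒪 _ (MvPowerSeries.constantCoeff f))]
    refine Ideal.add_mem _ (hspan h1) ?_
    have hc := mem_maximalIdeal_powerSeries.mp hf
    rw [hϖ.maximalIdeal_eq, Ideal.mem_span_singleton] at hc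
    obtain ⟨c, hc⟩ := hc
    rw [hc, map_mul]
    exact Ideal.mul_mem_right _ _ (hz (Sum.inl ()))
  · rintro (u | j)
    · show algebraMap 𝒪 _ ϖ ∈ _
      rw [mem_maximalIdeal_powerSeries, constantCoeff_algebraMap]
      exact (IsLocalRing.mem_maximalIdeal _).mpr hϖ.not_isUnit
    · exact span_X_le_maximalIdeal (Ideal.subset_span ⟨j, rfl⟩)
  · exact WithBot.coe_lt_coe.mpr (ENat.coe_lt_top _)

end FLTAgent.RT
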