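import Fermat.Agent.RT.World.Defs
import Fermat.Agent.RT.World.Dim

/-!
# The chain of components in a patched world

Each level raising step moves the support from the component unramified at `i` to the component
Steinberg at `i`, through their intersection.
-/

set_option autoImplicit false
set_option linter.unusedSectionVars false

noncomputable section

open IsLocalRing Matrix FLTAgent.Deformation

namespace FLTAgent.RT

open Patch

variable {𝒪 : Type} [CommRing 𝒪] [IsDomain 𝒪] [IsDiscreteValuationRing 𝒪]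
  [IsAdicComplete (maximalIdeal 𝒪) 𝒪] [Finite (ResidueField 𝒪)] [CharZero 𝒪]
  {ι X : Type} [Finite ι] [Finite X] [DecidableEq ι] {D : ι → LocalDatum 𝒪} {r : ℕ}

local instance adicCompleteChain (r : ℕ) :
    IsAdicComplete (maximalIdeal (MvPowerSeries (Fin r) 𝒪)) (MvPowerSeries (Fin r) 𝒪) :=
  isAdicComplete_powerSeries

local instance finiteResidueChain (r : ℕ) : Finite (ResidueField (MvPowerSeries (Fin r) 𝒪)) :=
  finite_residueField_powerSeries

local instance isDomainChain (r : ℕ) : IsDomain (MvPowerSeries (Fin r) 𝒪) := NoZeroDivisors.to_isDomain _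

/-- Elements with a power in the kernel lie in every prime above it. -/
theorem mem_of_pow_mem_ker {τ : Type} [Finite τ] {S : Type} [CommRing S] [IsLocalRing S]
    [IsNoetherianRing S] [IsAdicComplete (maximalIdeal S) S] [Algebra 𝒪 S] {d : ℕ}
    (P : PMod S τ d) {Q : Ideal (MvPowerSeries τ 𝒪)} [Q.IsPrime]
    (hQ : RingHom.ker (P.hom (O := 𝒪)) ≤ Q) {f : MvPowerSeries τ 𝒪} {m : ℕ}
    (h : P.hom (f ^ m) = 0) : f ∈ Q :=
  Ideal.IsPrime.mem_of_pow_mem ‹_› m (hQ h)

/-- A minimal prime of a patched module on which the relations hold is a component, read off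
from the inertia coordinates and the trace of Frobenius. -/
theorem exists_component_of_rel (h2 : IsUnit (2 : 𝒪))
    (hr : Nat.card ((Σ i, Fin (D i).h0) ⊕ X) ≤ r) {d : ℕ}
    (C : PMod (MvPowerSeries (Fin r) 𝒪) (LocVar ι X) d) (hC : C.Integral 𝒪)
    (hrel : ∀ i, (D i).Rel 2 fun k =>
      Ideal.Quotient.mk (RingHom.ker (C.hom (O := 𝒪))) (locCoord i k))
    (hnorm : ∀ i, (D i).IsNorm fun k =>
      Ideal.Quotient.mk (RingHom.ker (C.hom (O := 𝒪))) (locCoord i k))
    {Q : Ideal (MvPowerSeries (LocVar ι X) 𝒪)}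
    (hQ : Q ∈ (RingHom.ker (C.hom (O := 𝒪))).minimalPrimes) :
    ∃ (c : ι → CompType 𝒪) (hc : ∀ i, (c i).OK (D i)), compKer D c hc = Q ∧
      ∀ i, (c i = CompType.ur ∧
          ∀ k : Fin 8, 4 ≤ k → (locCoord i k : MvPowerSeries (LocVar ι X) 𝒪) ∈ Q) ∨
        ∃ ε, c i = CompType.st ε ∧ (∃ k : Fin 8, 4 ≤ k ∧
            (locCoord i k : MvPowerSeries (LocVar ι X) 𝒪) ∉ Q) ∧
          frobTrace D i - algebraMap 𝒪 _ ε * ((D i).q + 1) ∈ Q := by
  have hQp : Q.IsPrime := hQ.1.1
  obtain ⟨c, hc, hcQ, hcl⟩ := exists_compKer_le D Q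
    (fun i => (hrel i).map (Ideal.Quotient.factorₐ 𝒪 hQ.1.2))
    (fun i => (hnorm i).map (Ideal.Quotient.factorₐ 𝒪 hQ.1.2))
  have := isPrime_compKer (X := X) D c hc
  refine ⟨c, hc, hC.eq_of_le hQ hcQ ?_ (ringKrullDim_powerSeries_lt_top 𝒪 r), fun i => ?_⟩
  · refine le_trans (ringKrullDim_quotient_le h2 D (fun _ => 2) (fun i => ?_) (compKer D c hc)
      (rel_compKer D c hc) (isNorm_compKer D c hc)) ?_
    · rw [sub_self]
      exact Ideal.zero_mem _
    refine le_trans ?_ (succ_le_ringKrullDim_powerSeries 𝒪 r)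
    rw [Nat.card_sum, Nat.card_unique]
    exact_mod_cast (by omega : 1 + Nat.card ((Σ i, Fin (D i).h0) ⊕ X) ≤ r + 1)
  · rcases hcl i with h | ⟨ε, h1, -, h3, h4⟩
    · exact Or.inl h
    · exact Or.inr ⟨ε, h1, h3, Ideal.Quotient.eq_zero_iff_mem.mp h4⟩

/-- A minimal prime of a patched module of the world is a component. -/
theorem World.exists_component (W : World D X r) (h2 : IsUnit (2 : 𝒪))
    (hr : Nat.card ((Σ i, Fin (D i).h0) ⊕ X) ≤ r) {d : ℕ}
    (C : PMod (MvPowerSeries (Fin r) 𝒪) (LocVar ι X) d) (hC : C.Integral 𝒪) (A : Finset ι)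
    (hle : RingHom.ker ((W.mod A).hom (O := 𝒪)) ≤ RingHom.ker (C.hom (O := 𝒪)))
    {Q : Ideal (MvPowerSeries (LocVar ι X) 𝒪)}
    (hQ : Q ∈ (RingHom.ker (C.hom (O := 𝒪))).minimalPrimes) :
    ∃ (c : ι → CompType 𝒪) (hc : ∀ i, (c i).OK (D i)), compKer D c hc = Q ∧
      ∀ i, (c i = CompType.ur ∧
          ∀ k : Fin 8, 4 ≤ k → (locCoord i k : MvPowerSeries (LocVar ι X) 𝒪) ∈ Q) ∨
        ∃ ε, c i = CompType.st ε ∧ (∃ k : Fin 8, 4 ≤ k ∧
            (locCoord i k : MvPowerSeries (LocVar ι X) 𝒪) ∉ Q) ∧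
          frobTrace D i - algebraMap 𝒪 _ ε * ((D i).q + 1) ∈ Q :=
  exists_component_of_rel h2 hr C hC
    (fun i => (W.rel A i).map (Ideal.Quotient.factorₐ 𝒪 hle))
    (fun i => (W.norm A i).map (Ideal.Quotient.factorₐ 𝒪 hle)) hQ

/-- **The chain**: if the lowest level is nonzero, every component Steinberg on `A` and unramified
outside is in the support of the level `A`. -/
theorem World.ker_le_compKer (W : World D X r) (h2 : IsUnit (2 : 𝒪))
    (hr : Nat.card ((Σ i, Fin (D i).h0) ⊕ X) ≤ r) (h0 : 0 < W.rank ∅) {ε : ι → 𝒪}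
    (hε : ∀ i, (D i).SignOK (ε i)) (A : Finset ι) :
    RingHom.ker ((W.mod A).hom (O := 𝒪)) ≤ compKer D (stType ε A) (stType_ok hε A) := by
  classical
  induction A using Finset.induction_on with
  | empty =>
    have : NeZero (W.rank ∅) := ⟨h0.ne'⟩
    obtain ⟨P, hP, hle⟩ := Ideal.exists_le_maximal _ (RingHom.ker_ne_top ((W.mod ∅).hom (O := 𝒪)))
    have := hP.isPrime
    obtain ⟨Q, hQ, -⟩ := Ideal.exists_minimalPrimes_le hle
    have := hQ.1.1
    obtain ⟨c, hc, hcQ, hcl⟩ := W.exists_component h2 hr (W.mod ∅) (W.integral ∅) ∅ le_rfl hQ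
    suffices h : c = stType ε ∅ by
      subst h
      exact hQ.1.2.trans hcQ.ge
    funext i
    rcases hcl i with ⟨h, -⟩ | ⟨e, -, ⟨k, hk, hkQ⟩, -⟩
    · simp [stType, h]
    · obtain ⟨m, hm⟩ := W.unr ∅ i (Finset.notMem_empty i) k hk
      exact absurd (mem_of_pow_mem_ker (W.mod ∅) hQ.1.2 hm) hkQ
  | @insert i A hi ih =>
    -- the intersection of the two components
    set cP : ι → CompType 𝒪 := Function.update (stType ε A) i (CompType.stUr (ε i)) with hcP
    have hcPok : ∀ j, (cP j).OK (D j) := fun j => by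
      rcases eq_or_ne j i with rfl | h
      · rw [hcP, Function.update_self]; exact hε j
      · rw [hcP, Function.update_of_ne h]; exact stType_ok hε A j
    set 𝔓 := compKer (X := X) D cP hcPok with h𝔓
    have : 𝔓.IsPrime := isPrime_compKer (X := X) D cP hcPok
    have hle : compKer (X := X) D (stType ε A) (stType_ok hε A) ≤ 𝔓 := by
      refine compKer_le (X := X) D (stType_ok hε A) hcPok fun j => ?_
      rcases eq_or_ne j i with rfl | h
      · exact Or.inr ⟨ε j, by rw [hcP, Function.update_self], Or.inr (by simp [stType, hi])⟩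
      · exact Or.inl (by rw [hcP, Function.update_of_ne h])
    have R := W.raise A i hi
    obtain ⟨e, C, π, σ, hπσ, hσπ, hπ⟩ := exists_coker (W.mod A) (W.mod (insert i A))
      R.i₁ R.i₂ R.l₁ R.l₂ R.l₁i₁ R.l₁i₂ R.l₂i₁ R.l₂i₂ R.i₁_act R.i₂_act
    have hCint : C.Integral 𝒪 := (W.integral (insert i A)).of_intertwine C π σ hπσ hπ
    have hBC : RingHom.ker ((W.mod (insert i A)).hom (O := 𝒪)) ≤ RingHom.ker (C.hom (O := 𝒪)) :=
      fun g hg => by
        rw [RingHom.mem_ker] at hg ⊢
        rw [← Matrix.mul_one (C.hom g), ← hπσ, ← Matrix.mul_assoc,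
          ← (W.mod (insert i A)).mul_hom C π hπ, hg, Matrix.mul_zero, Matrix.zero_mul]
    have hc0 : (((D i).q : MvPowerSeries (LocVar ι X) 𝒪) + 1) ∉ 𝔓 := by
      have h := algebraMap_not_mem_compKer (X := X) D cP hcPok (a := ((D i).q : 𝒪) + 1)
        (by exact_mod_cast Nat.succ_ne_zero (D i).q)
      rwa [map_add, map_natCast, map_one] at h
    have hu : (((D i).q : MvPowerSeries (LocVar ι X) 𝒪) + 1) ^ 2 - frobTrace D i ^ 2 ∈ 𝔓 := by
      rw [← neg_sub]
      exact 𝔓.neg_mem (raisingElt_mem_compKer D cP hcPok (ε := ε i)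
        (Or.inr (by rw [hcP, Function.update_self])))
    have hCP := ker_coker_le (W.integral A) R.j₁s₁ R.j₂s₁ R.j₁_act R.j₂_act R.j₁i₁ R.j₁i₂
      R.j₂i₁ R.j₂i₂ hσπ hπ (ih.trans hle) hu hc0
    obtain ⟨Q, hQ, hQP⟩ := Ideal.exists_minimalPrimes_le hCP
    have := hQ.1.1
    obtain ⟨c, hc, hcQ, hcl⟩ := W.exists_component h2 hr C hCint (insert i A) hBC hQ
    suffices h : c = stType ε (insert i A) by
      subst h
      exact (hBC.trans hQ.1.2).trans hcQ.ge
    funext j
    rcases eq_or_ne j i with rfl | hji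
    · have hj : stType ε (insert j A) j = CompType.st (ε j) := by simp [stType]
      rw [hj]
      obtain ⟨m, hm⟩ := R.new
      have hmem : raisingElt (X := X) D j ∈ Q := mem_of_pow_mem_ker C hQ.1.2 (m := m) (by
        rw [← Matrix.mul_one (C.hom _), ← hπσ, ← Matrix.mul_assoc,
          ← (W.mod (insert j A)).mul_hom C π hπ, show π * (W.mod (insert j A)).hom
            (raisingElt D j ^ m) = π * (σ * π * (W.mod (insert j A)).hom (raisingElt D j ^ m)) by
            simp only [← Matrix.mul_assoc, hπσ, Matrix.one_mul],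
          hσπ, hm, Matrix.mul_zero, Matrix.zero_mul])
      rcases hcl j with ⟨h, -⟩ | ⟨e', he', -, htr⟩
      · rw [← hcQ] at hmem
        exact absurd hmem (raisingElt_not_mem_compKer D c hc h)
      · rw [he']
        congr 1
        exact sign_eq_of_mem D cP hcPok (Or.inr (by rw [hcP, Function.update_self])) (hQP htr)
    · have hcPj : cP j = stType ε A j := by rw [hcP, Function.update_of_ne hji]
      by_cases hjA : j ∈ A
      · have hj : stType ε (insert i A) j = CompType.st (ε j) := by simp [stType, hjA]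
        have hPj : cP j = CompType.st (ε j) := by rw [hcPj]; simp [stType, hjA]
        rw [hj]
        rcases hcl j with ⟨-, hN⟩ | ⟨e', he', -, htr⟩
        · exact absurd (hQP (hN 5 (by decide))) (locCoord_not_mem_compKer D cP hcPok hPj)
        · rw [he']
          congr 1
          exact sign_eq_of_mem D cP hcPok (Or.inl hPj) (hQP htr)
      · have hj : stType ε (insert i A) j = CompType.ur := by simp [stType, hjA, hji]
        rw [hj]
        rcases hcl j with ⟨h, -⟩ | ⟨e', -, ⟨k, hk, hkQ⟩, -⟩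
        · exact h
        · obtain ⟨m, hm⟩ := W.unr (insert i A) j (by simp [hjA, hji]) k hk
          exact absurd (mem_of_pow_mem_ker _ (hBC.trans hQ.1.2) hm) hkQ

end FLTAgent.RT
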