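import Fermat.Agent.RT.Patch.Raising
import Fermat.Agent.RT.LocalFacts
import Mathlib.RingTheory.MvPowerSeries.Equiv
import Mathlib.RingTheory.DiscreteValuationRing.TFAE

/-!
# Patched worlds

A world is a family of patched modules over `S = 𝒪⟦y₁, …, y_r⟧` indexed by the sets `A` of
auxiliary primes in the level, all acted on through `𝒪⟦τ⟧` for the local coordinates `τ`,
connected by the degeneracy maps.
-/

set_option autoImplicit false

noncomputable section

open IsLocalRing Matrix FLTAgent.Deformation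

namespace FLTAgent.RT

open Patch

variable {S : Type} [CommRing S] [IsLocalRing S] [IsNoetherianRing S]
  [IsAdicComplete (maximalIdeal S) S] {O : Type} [CommRing O] [IsLocalRing O] [Algebra O S]

/-- The degeneracy maps between two patched levels: `i` has a left inverse, `j` a right inverse,
`j i = [[c, t], [t, c]]`, and a power of `u` kills the cokernel of `i`. -/
structure RaiseData {τ : Type} [Finite τ] {d f : ℕ} (A : PMod S τ d) (B : PMod S τ f)
    (c t u : MvPowerSeries τ O) : Type where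
  i₁ : Matrix (Fin f) (Fin d) S
  i₂ : Matrix (Fin f) (Fin d) S
  l₁ : Matrix (Fin d) (Fin f) S
  l₂ : Matrix (Fin d) (Fin f) S
  j₁ : Matrix (Fin d) (Fin f) S
  j₂ : Matrix (Fin d) (Fin f) S
  s₁ : Matrix (Fin f) (Fin d) S
  l₁i₁ : l₁ * i₁ = 1
  l₁i₂ : l₁ * i₂ = 0
  l₂i₁ : l₂ * i₁ = 0
  l₂i₂ : l₂ * i₂ = 1
  i₁_act : ∀ x, B.act x * i₁ = i₁ * A.act x
  i₂_act : ∀ x, B.act x * i₂ = i₂ * A.act x
  j₁_act : ∀ x, j₁ * B.act x = A.act x * j₁
  j₂_act : ∀ x, j₂ * B.act x = A.act x * j₂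
  j₁s₁ : j₁ * s₁ = 1
  j₂s₁ : j₂ * s₁ = 0
  j₁i₁ : j₁ * i₁ = A.hom c
  j₁i₂ : j₁ * i₂ = A.hom t
  j₂i₁ : j₂ * i₁ = A.hom t
  j₂i₂ : j₂ * i₂ = A.hom c
  new : ∃ m : ℕ, (1 - i₁ * l₁ - i₂ * l₂) * B.hom (u ^ m) = 0

variable {𝒪 : Type} [CommRing 𝒪] [IsLocalRing 𝒪] [IsNoetherianRing 𝒪]
  [IsAdicComplete (maximalIdeal 𝒪) 𝒪] {ι X : Type} [Finite ι] [Finite X] [DecidableEq ι]

local instance adicCompleteDefs {r : ℕ} :
    IsAdicComplete (maximalIdeal (MvPowerSeries (Fin r) 𝒪)) (MvPowerSeries (Fin r) 𝒪) :=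
  isAdicComplete_powerSeries

/-- A patched world: trace `2` on inertia at every prime of `ι`, unramified at the primes outside
the level. -/
structure World (D : ι → LocalDatum 𝒪) (X : Type) [Finite X] (r : ℕ) : Type where
  rank : Finset ι → ℕ
  mod : ∀ A, PMod (MvPowerSeries (Fin r) 𝒪) (LocVar ι X) (rank A)
  integral : ∀ A, (mod A).Integral 𝒪
  rel : ∀ A i, (D i).Rel 2 fun k =>
    Ideal.Quotient.mk (RingHom.ker ((mod A).hom (O := 𝒪))) (locCoord i k)
  norm : ∀ A i, (D i).IsNorm fun k =>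
    Ideal.Quotient.mk (RingHom.ker ((mod A).hom (O := 𝒪))) (locCoord i k)
  unr : ∀ A i, i ∉ A → ∀ k : Fin 8, 4 ≤ k →
    ∃ m : ℕ, (mod A).hom ((locCoord i k : MvPowerSeries (LocVar ι X) 𝒪) ^ m) = 0
  raise : ∀ A i, i ∉ A → RaiseData (mod A) (mod (insert i A))
    (((D i).q : MvPowerSeries (LocVar ι X) 𝒪) + 1) (frobTrace D i) (raisingElt D i)

/-- The component which is Steinberg with signs `ε` on `A`, unramified outside. -/
def stType (ε : ι → 𝒪) (A : Finset ι) (i : ι) : CompType 𝒪 :=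
  if i ∈ A then CompType.st (ε i) else CompType.ur

omit [IsNoetherianRing 𝒪] [IsAdicComplete (maximalIdeal 𝒪) 𝒪] [Finite ι] in
theorem stType_ok {D : ι → LocalDatum 𝒪} {ε : ι → 𝒪} (hε : ∀ i, (D i).SignOK (ε i))
    (A : Finset ι) (i : ι) : (stType ε A i).OK (D i) := by
  unfold stType
  split
  · exact hε i
  · trivial

end FLTAgent.RT
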