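import Fermat.Agent.RT.World.RaisePDefs

/-!
# Raising the level at `p`: the limit
-/

set_option autoImplicit false
set_option linter.unusedSectionVars false

noncomputable section

open IsLocalRing Matrix FLTAgent.Deformation

namespace FLTAgent.RT

open Patch

variable {𝒪 : Type} [CommRing 𝒪] [IsDomain 𝒪] [IsDiscreteValuationRing 𝒪]
  [IsAdicComplete (maximalIdeal 𝒪) 𝒪] [Finite (ResidueField 𝒪)] [CharZero 𝒪]
  {ι Xf Xs : Type} [Finite Xf] [Finite Xs] [DecidableEq ι]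
  {D : ι → LocalDatum 𝒪} {r : ℕ}

local instance adicCompleteRaisePLimit (r : ℕ) :
    IsAdicComplete (maximalIdeal (MvPowerSeries (Fin r) 𝒪)) (MvPowerSeries (Fin r) 𝒪) :=
  isAdicComplete_powerSeries

local instance finiteResidueRaisePLimit (r : ℕ) :
    Finite (ResidueField (MvPowerSeries (Fin r) 𝒪)) :=
  finite_residueField_powerSeries

variable [Fintype ι] {fsys : System D Xf r} {c : 𝒪} {t : MvPowerSeries (LocVar ι Xf) 𝒪}

/-- The data in the limit along the indices `ν`. -/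
structure RaiseLimit (sys : PlaceRaise D Xf Xs r fsys c t)
    (xs : ℕ → MvPowerSeries (LocVar ι (Xf ⊕ Xs)) 𝒪 →ₐ[𝒪] 𝒪)
    (f : ℕ → MvPowerSeries (LocVar ι Xs) 𝒪) : Type where
  ν : ℕ → ℕ
  le_ν : ∀ n, n ≤ ν n
  L : PMod (MvPowerSeries (Fin r) 𝒪) (LocVar ι Xf) (fsys.rank Finset.univ)
  L_int : L.Integral 𝒪
  L_le : ∀ {ε : ι → 𝒪} (hε : ∀ i, (D i).SignOK (ε i)), IsUnit (2 : 𝒪) →
    Nat.card ((Σ i, Fin (D i).h0) ⊕ Xf) ≤ r → 0 < fsys.rank ∅ →
    RingHom.ker (L.hom (O := 𝒪)) ≤ compKer D (stType ε Finset.univ) (stType_ok hε Finset.univ)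
  A : PMod (MvPowerSeries (Fin r) 𝒪) (LocVar ι (Xf ⊕ Xs)) (fsys.rank Finset.univ)
  B : PMod (MvPowerSeries (Fin r) 𝒪) (LocVar ι (Xf ⊕ Xs)) sys.rankB
  A_map : ∀ n g, A.homMod n g = (sys.actA (ν n) g).map (red (le_ν n))
  B_map : ∀ n g, B.homMod n g = (sys.actB (ν n) g).map (red (le_ν n))
  A_left : A.restrict leftVar = L
  i₁ : Matrix (Fin sys.rankB) (Fin (fsys.rank Finset.univ)) (MvPowerSeries (Fin r) 𝒪)
  i₂ : Matrix (Fin sys.rankB) (Fin (fsys.rank Finset.univ)) (MvPowerSeries (Fin r) 𝒪)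
  s₁ : Matrix (Fin sys.rankB) (Fin (fsys.rank Finset.univ)) (MvPowerSeries (Fin r) 𝒪)
  l₁ : Matrix (Fin (fsys.rank Finset.univ)) (Fin sys.rankB) (MvPowerSeries (Fin r) 𝒪)
  l₂ : Matrix (Fin (fsys.rank Finset.univ)) (Fin sys.rankB) (MvPowerSeries (Fin r) 𝒪)
  j₁ : Matrix (Fin (fsys.rank Finset.univ)) (Fin sys.rankB) (MvPowerSeries (Fin r) 𝒪)
  j₂ : Matrix (Fin (fsys.rank Finset.univ)) (Fin sys.rankB) (MvPowerSeries (Fin r) 𝒪)
  T : Matrix (Fin (fsys.rank Finset.univ)) (Fin (fsys.rank Finset.univ))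
    (MvPowerSeries (Fin r) 𝒪)
  l₁i₁ : l₁ * i₁ = 1
  l₁i₂ : l₁ * i₂ = 0
  l₂i₁ : l₂ * i₁ = 0
  l₂i₂ : l₂ * i₂ = 1
  i₁_act : ∀ x, B.act x * i₁ = i₁ * A.act x
  i₂_act : ∀ x, B.act x * i₂ = i₂ * A.act x
  j₁_act : ∀ x, j₁ * B.act x = A.act x * j₁
  j₂_act : ∀ x, j₂ * B.act x = A.act x * j₂
  j₁s₁ : j₁ * s₁ = 1
  j₂s₁ : j₂ * s₁ = 0
  j₁i₁ : j₁ * i₁ = A.hom (algebraMap 𝒪 (MvPowerSeries (LocVar ι (Xf ⊕ Xs)) 𝒪) c)
  j₁i₂ : j₁ * i₂ = T
  j₂i₁ : j₂ * i₁ = T
  j₂i₂ : j₂ * i₂ = A.hom (algebraMap 𝒪 (MvPowerSeries (LocVar ι (Xf ⊕ Xs)) 𝒪) c)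
  T_comm : ∀ g : MvPowerSeries (LocVar ι (Xf ⊕ Xs)) 𝒪, Commute (A.hom g) T
  T_nil : (T - A.hom (inclPS leftVar t)) ^ sys.K = 0
  coker_map : ∀ n, (1 - i₁ * l₁ - i₂ * l₂).map
    (Ideal.Quotient.mk (maximalIdeal (MvPowerSeries (Fin r) 𝒪) ^ n)) =
      (1 - sys.i₁ (ν n) * sys.l₁ (ν n) - sys.i₂ (ν n) * sys.l₂ (ν n)).map (red (le_ν n))
  gF : Xs → MvPowerSeries (LocVar ι Xf) 𝒪
  gF_conv : ∀ n j, gF j - sys.toF (ν n) j ∈ maximalIdeal (MvPowerSeries (LocVar ι Xf) 𝒪) ^ n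
  gS : Xf → MvPowerSeries (LocVar ι Xs) 𝒪
  gS_conv : ∀ n j, gS j - sys.toS (ν n) j ∈ maximalIdeal (MvPowerSeries (LocVar ι Xs) 𝒪) ^ n
  gB : Option (Fin r) → MvPowerSeries (LocVar ι (Xf ⊕ Xs)) 𝒪
  gB_conv : ∀ n j, gB (some j) - sys.dia (ν n) j ∈
    maximalIdeal (MvPowerSeries (LocVar ι (Xf ⊕ Xs)) 𝒪) ^ n
  gf_conv : ∀ n, gB none - inclPS rightVar (f (ν n)) ∈
    maximalIdeal (MvPowerSeries (LocVar ι (Xf ⊕ Xs)) 𝒪) ^ n
  x : MvPowerSeries (LocVar ι (Xf ⊕ Xs)) 𝒪 →ₐ[𝒪] 𝒪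
  x_conv : ∀ n g, x g - xs (ν n) g ∈ maximalIdeal 𝒪 ^ n

theorem PlaceRaise.commute_act (sys : PlaceRaise D Xf Xs r fsys c t) (n : ℕ)
    (g : MvPowerSeries (LocVar ι (Xf ⊕ Xs)) 𝒪) : Commute (sys.actA n g) (sys.T n) := by
  have := finite_quotient_pow (S := MvPowerSeries (Fin r) 𝒪) n
  have : Finite (Matrix (Fin (fsys.rank Finset.univ)) (Fin (fsys.rank Finset.univ))
      (STrunc 𝒪 r n)) :=
    inferInstanceAs (Finite (Fin (fsys.rank Finset.univ) → Fin (fsys.rank Finset.univ) →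
      STrunc 𝒪 r n))
  obtain ⟨N, hN⟩ := exists_pow_le_ker (sys.actA n).toRingHom
  obtain ⟨q, hq⟩ := exists_polynomial_sub_mem g N
  have e : sys.actA n g = sys.actA n (q : MvPowerSeries (LocVar ι (Xf ⊕ Xs)) 𝒪) := by
    have h1 := RingHom.mem_ker.mp (hN hq)
    rw [map_sub, sub_eq_zero] at h1
    exact h1
  rw [e]
  clear e hq
  induction q using MvPolynomial.induction_on with
  | C b =>
    rw [MvPolynomial.coe_C, show (MvPowerSeries.C b : MvPowerSeries (LocVar ι (Xf ⊕ Xs)) 𝒪) =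
      algebraMap 𝒪 _ b by rw [MvPowerSeries.algebraMap_apply]; rfl, AlgHom.commutes]
    exact Algebra.commutes b _
  | add p q hp hq => rw [MvPolynomial.coe_add, map_add]; exact hp.add_left hq
  | mul_X p x hp =>
    rw [MvPolynomial.coe_mul, MvPolynomial.coe_X, map_mul]
    exact hp.mul_left (sys.T_comm n x)

set_option maxHeartbeats 1000000 in
theorem PlaceRaise.exists_raiseLimit (sys : PlaceRaise D Xf Xs r fsys c t)
    (xs : ℕ → MvPowerSeries (LocVar ι (Xf ⊕ Xs)) 𝒪 →ₐ[𝒪] 𝒪)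
    (f : ℕ → MvPowerSeries (LocVar ι Xs) 𝒪) : Nonempty (RaiseLimit sys xs f) := by
  classical
  let S := MvPowerSeries (Fin r) 𝒪
  let R := MvPowerSeries (LocVar ι (Xf ⊕ Xs)) 𝒪
  obtain ⟨s, hs, L, W, hLW, hint, hW⟩ := fsys.exists_world
  have := finite_residueField_powerSeries (O := 𝒪) (τ := LocVar ι Xf)
  have := finite_residueField_powerSeries (O := 𝒪) (τ := LocVar ι Xs)
  have := finite_residueField_powerSeries (O := 𝒪) (τ := LocVar ι (Xf ⊕ Xs))
  have := isAdicComplete_powerSeries (σ := LocVar ι Xf) (𝒪 := 𝒪)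
  have := isAdicComplete_powerSeries (σ := LocVar ι Xs) (𝒪 := 𝒪)
  have := isAdicComplete_powerSeries (σ := LocVar ι (Xf ⊕ Xs)) (𝒪 := 𝒪)
  obtain ⟨x', u₀, hu₀, hx₀⟩ := exists_point_limit fun n => xs (s n)
  obtain ⟨gF, v₁, hv₁, hgF⟩ := exists_subseq_limit fun n => sys.toF (s (u₀ n))
  obtain ⟨gS, v₂, hv₂, hgS⟩ := exists_subseq_limit fun n => sys.toS (s (u₀ (v₁ n)))
  obtain ⟨gB, v₃, hv₃, hgB⟩ := exists_subseq_limit fun n (o : Option (Fin r)) =>
    o.elim (inclPS rightVar (f (s (u₀ (v₁ (v₂ n)))))) fun j => sys.dia (s (u₀ (v₁ (v₂ n)))) j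
  let μ : ℕ → ℕ := fun n => s (u₀ (v₁ (v₂ (v₃ n))))
  have hμ : StrictMono μ := hs.comp (hu₀.comp (hv₁.comp (hv₂.comp hv₃)))
  let d : Bool → ℕ := fun b => cond b sys.rankB (fsys.rank Finset.univ)
  let act₀ : ∀ m (b : Bool), R →ₐ[𝒪] Matrix (Fin (d b)) (Fin (d b)) (STrunc 𝒪 r m) := fun m b =>
    match b with
    | true => sys.actB m
    | false => sys.actA m
  let redA : ∀ n, STrunc 𝒪 r (μ n) →ₐ[𝒪] STrunc 𝒪 r n := fun n =>
    { red (S := S) (hμ.id_le n) with commutes' := fun _ => rfl }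
  let rw_ : (Fin 3 ⊕ Fin 5) ⊕ Fin r → ℕ := Sum.elim
    (Sum.elim (fun _ => sys.rankB) fun _ => fsys.rank Finset.univ) fun _ => sys.rankB
  let cl : (Fin 3 ⊕ Fin 5) ⊕ Fin r → ℕ := Sum.elim
    (Sum.elim (fun _ => fsys.rank Finset.univ)
      fun k => ![sys.rankB, sys.rankB, sys.rankB, sys.rankB, fsys.rank Finset.univ] k)
    fun _ => sys.rankB
  let E₀ : ∀ m k, Matrix (Fin (rw_ k)) (Fin (cl k)) (STrunc 𝒪 r m) := fun m k => match k with
    | Sum.inl (Sum.inl 0) => sys.i₁ m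
    | Sum.inl (Sum.inl 1) => sys.i₂ m
    | Sum.inl (Sum.inl 2) => sys.s₁ m
    | Sum.inl (Sum.inr 0) => sys.l₁ m
    | Sum.inl (Sum.inr 1) => sys.l₂ m
    | Sum.inl (Sum.inr 2) => sys.j₁ m
    | Sum.inl (Sum.inr 3) => sys.j₂ m
    | Sum.inl (Sum.inr 4) => sys.T m
    | Sum.inr j => sys.actB m (sys.dia m j)
  obtain ⟨s', hs', L', F, hL', hF⟩ := exists_limit (S := S) (ι := Bool)
    (τ := fun _ => LocVar ι (Xf ⊕ Xs)) (d := d)
    (fun n b => (redA n).mapMatrix.comp (act₀ (μ n) b))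
    (fun n k => (E₀ (μ n) k).map (red (S := S) (hμ.id_le n)))
  have hν : ∀ n, n ≤ μ (s' n) := fun n => (hs'.id_le n).trans (hμ.id_le _)
  let A : PMod S (LocVar ι (Xf ⊕ Xs)) (fsys.rank Finset.univ) := L' false
  let B : PMod S (LocVar ι (Xf ⊕ Xs)) sys.rankB := L' true
  have hA : ∀ n g, A.homMod n g = (sys.actA (μ (s' n)) g).map (red (hν n)) := fun n g =>
    (hL' n false g).trans (map_red_red (S := S) (hs'.id_le n) (hμ.id_le _) _)
  have hB : ∀ n g, B.homMod n g = (sys.actB (μ (s' n)) g).map (red (hν n)) := fun n g =>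
    (hL' n true g).trans (map_red_red (S := S) (hs'.id_le n) (hμ.id_le _) _)
  have hE : ∀ n k, (F k).map (Ideal.Quotient.mk (maximalIdeal S ^ n)) =
      (E₀ (μ (s' n)) k).map (red (hν n)) := fun n k =>
    (hF n k).trans (map_red_red (S := S) (hs'.id_le n) (hμ.id_le _) _)
  let i₁ : Matrix (Fin sys.rankB) (Fin (fsys.rank Finset.univ)) S := F (Sum.inl (Sum.inl 0))
  let i₂ : Matrix (Fin sys.rankB) (Fin (fsys.rank Finset.univ)) S := F (Sum.inl (Sum.inl 1))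
  let s₁ : Matrix (Fin sys.rankB) (Fin (fsys.rank Finset.univ)) S := F (Sum.inl (Sum.inl 2))
  let l₁ : Matrix (Fin (fsys.rank Finset.univ)) (Fin sys.rankB) S := F (Sum.inl (Sum.inr 0))
  let l₂ : Matrix (Fin (fsys.rank Finset.univ)) (Fin sys.rankB) S := F (Sum.inl (Sum.inr 1))
  let j₁ : Matrix (Fin (fsys.rank Finset.univ)) (Fin sys.rankB) S := F (Sum.inl (Sum.inr 2))
  let j₂ : Matrix (Fin (fsys.rank Finset.univ)) (Fin sys.rankB) S := F (Sum.inl (Sum.inr 3))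
  let T : Matrix (Fin (fsys.rank Finset.univ)) (Fin (fsys.rank Finset.univ)) S :=
    F (Sum.inl (Sum.inr 4))
  have ei₁ : ∀ n, i₁.map (Ideal.Quotient.mk (maximalIdeal S ^ n)) =
      (sys.i₁ (μ (s' n))).map (red (hν n)) := fun n => hE n _
  have ei₂ : ∀ n, i₂.map (Ideal.Quotient.mk (maximalIdeal S ^ n)) =
      (sys.i₂ (μ (s' n))).map (red (hν n)) := fun n => hE n _
  have es₁ : ∀ n, s₁.map (Ideal.Quotient.mk (maximalIdeal S ^ n)) =
      (sys.s₁ (μ (s' n))).map (red (hν n)) := fun n => hE n _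
  have el₁ : ∀ n, l₁.map (Ideal.Quotient.mk (maximalIdeal S ^ n)) =
      (sys.l₁ (μ (s' n))).map (red (hν n)) := fun n => hE n _
  have el₂ : ∀ n, l₂.map (Ideal.Quotient.mk (maximalIdeal S ^ n)) =
      (sys.l₂ (μ (s' n))).map (red (hν n)) := fun n => hE n _
  have ej₁ : ∀ n, j₁.map (Ideal.Quotient.mk (maximalIdeal S ^ n)) =
      (sys.j₁ (μ (s' n))).map (red (hν n)) := fun n => hE n _
  have ej₂ : ∀ n, j₂.map (Ideal.Quotient.mk (maximalIdeal S ^ n)) =
      (sys.j₂ (μ (s' n))).map (red (hν n)) := fun n => hE n _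
  have eT : ∀ n, T.map (Ideal.Quotient.mk (maximalIdeal S ^ n)) =
      (sys.T (μ (s' n))).map (red (hν n)) := fun n => hE n _
  have eA : ∀ n x, (A.act x).map (Ideal.Quotient.mk (maximalIdeal S ^ n)) =
      (sys.actA (μ (s' n)) (MvPowerSeries.X x)).map (red (hν n)) := fun n x => by
    rw [← A.hom_X (O := 𝒪), ← PMod.homMod_apply, hA]
  have eB : ∀ n x, (B.act x).map (Ideal.Quotient.mk (maximalIdeal S ^ n)) =
      (sys.actB (μ (s' n)) (MvPowerSeries.X x)).map (red (hν n)) := fun n x => by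
    rw [← B.hom_X (O := 𝒪), ← PMod.homMod_apply, hB]
  have ecA : ∀ n, (A.hom (algebraMap 𝒪 R c)).map (Ideal.Quotient.mk (maximalIdeal S ^ n)) =
      (algebraMap 𝒪 (Matrix (Fin (fsys.rank Finset.univ)) (Fin (fsys.rank Finset.univ))
        (STrunc 𝒪 r (μ (s' n)))) c).map (red (hν n)) := fun n => by
    rw [← PMod.homMod_apply, hA, AlgHom.commutes]
  exact ⟨
    { ν := fun n => μ (s' n)
      le_ν := hν
      L := L Finset.univ
      L_int := hint Finset.univ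
      L_le := fun {ε} hε h2 hrf h0 => by
        rw [← (hW Finset.univ).2]
        exact W.ker_le_compKer h2 hrf (by rw [(hW ∅).1]; exact h0) hε Finset.univ
      A := A
      B := B
      A_map := hA
      B_map := hB
      A_left := PMod.eq_of_act fun x => matrix_eq_of_forall_map_eq fun n => by
        show (A.act (leftVar x)).map _ = _
        have hk : n ≤ u₀ (v₁ (v₂ (v₃ (s' n)))) := (hs'.id_le n).trans ((hv₃.id_le _).trans
          ((hv₂.id_le _).trans ((hv₁.id_le _).trans (hu₀.id_le _))))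
        rw [eA, sys.actA_left, ← (L Finset.univ).hom_X (O := 𝒪) x, ← PMod.homMod_apply,
          ← (L Finset.univ).homMod_red hk, hLW]
        exact (map_red_red hk (hs.id_le _) _).symm
      i₁ := i₁
      i₂ := i₂
      s₁ := s₁
      l₁ := l₁
      l₂ := l₂
      j₁ := j₁
      j₂ := j₂
      T := T
      l₁i₁ := matrix_eq_of_forall_map_eq fun n => by
        rw [Matrix.map_mul, el₁, ei₁, ← Matrix.map_mul, sys.l₁i₁,
          Matrix.map_one _ (map_zero _) (map_one _), Matrix.map_one _ (map_zero _) (map_one _)]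
      l₁i₂ := matrix_eq_of_forall_map_eq fun n => by
        rw [Matrix.map_mul, el₁, ei₂, ← Matrix.map_mul, sys.l₁i₂,
          Matrix.map_zero _ (map_zero _), Matrix.map_zero _ (map_zero _)]
      l₂i₁ := matrix_eq_of_forall_map_eq fun n => by
        rw [Matrix.map_mul, el₂, ei₁, ← Matrix.map_mul, sys.l₂i₁,
          Matrix.map_zero _ (map_zero _), Matrix.map_zero _ (map_zero _)]
      l₂i₂ := matrix_eq_of_forall_map_eq fun n => by
        rw [Matrix.map_mul, el₂, ei₂, ← Matrix.map_mul, sys.l₂i₂,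
          Matrix.map_one _ (map_zero _) (map_one _), Matrix.map_one _ (map_zero _) (map_one _)]
      i₁_act := fun x => matrix_eq_of_forall_map_eq fun n => by
        rw [Matrix.map_mul, Matrix.map_mul, eA, eB, ei₁, ← Matrix.map_mul, ← Matrix.map_mul,
          sys.i₁_act]
      i₂_act := fun x => matrix_eq_of_forall_map_eq fun n => by
        rw [Matrix.map_mul, Matrix.map_mul, eA, eB, ei₂, ← Matrix.map_mul, ← Matrix.map_mul,
          sys.i₂_act]
      j₁_act := fun x => matrix_eq_of_forall_map_eq fun n => by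
        rw [Matrix.map_mul, Matrix.map_mul, eA, eB, ej₁, ← Matrix.map_mul, ← Matrix.map_mul,
          sys.j₁_act]
      j₂_act := fun x => matrix_eq_of_forall_map_eq fun n => by
        rw [Matrix.map_mul, Matrix.map_mul, eA, eB, ej₂, ← Matrix.map_mul, ← Matrix.map_mul,
          sys.j₂_act]
      j₁s₁ := matrix_eq_of_forall_map_eq fun n => by
        rw [Matrix.map_mul, ej₁, es₁, ← Matrix.map_mul, sys.j₁s₁,
          Matrix.map_one _ (map_zero _) (map_one _), Matrix.map_one _ (map_zero _) (map_one _)]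
      j₂s₁ := matrix_eq_of_forall_map_eq fun n => by
        rw [Matrix.map_mul, ej₂, es₁, ← Matrix.map_mul, sys.j₂s₁,
          Matrix.map_zero _ (map_zero _), Matrix.map_zero _ (map_zero _)]
      j₁i₁ := matrix_eq_of_forall_map_eq fun n => by
        rw [Matrix.map_mul, ej₁, ei₁, ← Matrix.map_mul, sys.j₁i₁, ecA]
      j₁i₂ := matrix_eq_of_forall_map_eq fun n => by
        rw [Matrix.map_mul, ej₁, ei₂, ← Matrix.map_mul, sys.j₁i₂, eT]
      j₂i₁ := matrix_eq_of_forall_map_eq fun n => by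
        rw [Matrix.map_mul, ej₂, ei₁, ← Matrix.map_mul, sys.j₂i₁, eT]
      j₂i₂ := matrix_eq_of_forall_map_eq fun n => by
        rw [Matrix.map_mul, ej₂, ei₂, ← Matrix.map_mul, sys.j₂i₂, ecA]
      T_comm := fun g => matrix_eq_of_forall_map_eq fun n => by
        rw [Matrix.map_mul, Matrix.map_mul, ← PMod.homMod_apply, hA, eT, ← Matrix.map_mul,
          ← Matrix.map_mul, (sys.commute_act _ g).eq]
      T_nil := matrix_eq_of_forall_map_eq fun n => by
        rw [← RingHom.mapMatrix_apply, map_pow, RingHom.mapMatrix_apply,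
          Matrix.map_sub _ (map_sub _), eT, ← PMod.homMod_apply, hA, ← Matrix.map_sub _ (map_sub _),
          ← RingHom.mapMatrix_apply, ← map_pow, sys.T_nil, map_zero,
          Matrix.map_zero _ (map_zero _)]
      coker_map := fun n => by
        rw [Matrix.map_sub _ (map_sub _), Matrix.map_sub _ (map_sub _), Matrix.map_mul,
          Matrix.map_mul, ei₁, ei₂, el₁, el₂, Matrix.map_one _ (map_zero _) (map_one _),
          ← Matrix.map_mul, ← Matrix.map_mul,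
          ← Matrix.map_one (red (hν n)) (map_zero _) (map_one _),
          ← Matrix.map_sub _ (map_sub _), ← Matrix.map_sub _ (map_sub _)]
      gF := gF
      gF_conv := fun n j => Ideal.pow_le_pow_right
        ((hs'.id_le n).trans ((hv₃.id_le _).trans (hv₂.id_le _))) (hgF (v₂ (v₃ (s' n))) j)
      gS := gS
      gS_conv := fun n j => Ideal.pow_le_pow_right
        ((hs'.id_le n).trans (hv₃.id_le _)) (hgS (v₃ (s' n)) j)
      gB := gB
      gB_conv := fun n j => Ideal.pow_le_pow_right (hs'.id_le n) (hgB (s' n) (some j))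
      gf_conv := fun n => Ideal.pow_le_pow_right (hs'.id_le n) (hgB (s' n) none)
      x := x'
      x_conv := fun n g => Ideal.pow_le_pow_right ((hs'.id_le n).trans ((hv₃.id_le _).trans
        ((hv₂.id_le _).trans (hv₁.id_le _)))) (hx₀ (v₁ (v₂ (v₃ (s' n)))) g) }⟩

end FLTAgent.RT
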